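import Mathlib

/-!
# K-1c (C1): the abstract Moebius core of the cyclic case of Frobenius' density theorem

No number fields here.  `P` is a type of "primes" with weights `w q s` (think `N q ^ (-s)`),
`m q` is a divisor of `f` (think: the index of the decomposition group of `q` in a cyclic group
of order `f`).  If, for every `d ∣ f`, the weighted sum over `{q // d ∣ m q}` is
`(1/d) * log (1/(s-1)) + O(1)` as `s → 1+`, then `{q | m q = 1}` is infinite.
-/

namespace Fermat.Agent.S30.Density.CyclicCore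

open Filter Topology ArithmeticFunction Asymptotics

/-- `∑_{d ∣ f, d ∣ m} μ(d) = [m = 1]` for `m ∣ f`. -/
theorem sum_moebius_ite {f m : ℕ} (hf : f ≠ 0) (hm : m ∣ f) :
    ∑ d ∈ f.divisors, (if d ∣ m then ((moebius d : ℤ) : ℝ) else 0) =
      if m = 1 then 1 else 0 := by
  rw [← Finset.sum_filter, Nat.divisors_filter_dvd_of_dvd hf hm]
  have h := congrArg (fun F : ArithmeticFunction ℝ => F m)
    (coe_moebius_mul_coe_zeta (R := ℝ))
  simp only [coe_mul_zeta_apply, one_apply] at h
  simpa using h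

/-- `∑_{d ∣ f} μ(d)/d = φ(f)/f`. -/
theorem sum_moebius_div {f : ℕ} (hf : 0 < f) :
    ∑ d ∈ f.divisors, ((moebius d : ℤ) : ℝ) * (1 / (d : ℝ)) = (f.totient : ℝ) / f := by
  have h := (sum_eq_iff_sum_mul_moebius_eq (R := ℝ) (f := fun n => (n.totient : ℝ))
    (g := fun n => (n : ℝ))).mp (by
      intro n _
      have := Nat.sum_totient n
      exact_mod_cast this) f hf
  rw [← h, Finset.sum_div, Nat.sum_divisorsAntidiagonal
    (f := fun a b => ((moebius a : ℤ) : ℝ) * (b : ℝ) / (f : ℝ))]
  refine Finset.sum_congr rfl fun d hd => ?_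
  have hd' : d ∣ f := Nat.dvd_of_mem_divisors hd
  have hd0 : (d : ℝ) ≠ 0 := by
    have : d ≠ 0 := fun h0 => by simp [h0] at hd
    exact_mod_cast this
  have hf0 : (f : ℝ) ≠ 0 := by exact_mod_cast hf.ne'
  have : ((f / d : ℕ) : ℝ) = (f : ℝ) / d := Nat.cast_div hd' hd0
  rw [this]
  field_simp

theorem sum_moebius_div_pos {f : ℕ} (hf : 0 < f) :
    0 < ∑ d ∈ f.divisors, ((moebius d : ℤ) : ℝ) * (1 / (d : ℝ)) := by
  rw [sum_moebius_div hf]
  have : 0 < f.totient := Nat.totient_pos.mpr hf
  positivity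

/-- `log (1/(s-1)) → +∞` as `s → 1+`. -/
theorem tendsto_log_one_div_sub_one :
    Tendsto (fun s : ℝ => Real.log (1 / (s - 1))) (𝓝[>] 1) atTop := by
  have h1 : Tendsto (fun s : ℝ => s - 1) (𝓝[>] 1) (𝓝[>] 0) := by
    refine tendsto_nhdsWithin_of_tendsto_nhds_of_eventually_within _ ?_ ?_
    · have : Tendsto (fun s : ℝ => s - 1) (𝓝 1) (𝓝 (1 - 1)) :=
        (continuous_id.sub continuous_const).tendsto 1
      simpa using this.mono_left nhdsWithin_le_nhds
    · filter_upwards [self_mem_nhdsWithin] with s hs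
      exact sub_pos.mpr (Set.mem_Ioi.mp hs)
  have h2 := Real.tendsto_log_nhdsGT_zero.comp h1
  have h3 : Tendsto (fun s : ℝ => -Real.log (s - 1)) (𝓝[>] 1) atTop :=
    tendsto_neg_atBot_atTop.comp h2
  refine h3.congr fun s => ?_
  rw [one_div, Real.log_inv]

variable {P : Type*}

/-- The abstract cyclic density lemma. -/
theorem infinite_of_density (w : P → ℝ → ℝ)
    (hw : ∀ q s, 1 < s → 0 ≤ w q s)
    (hsum : ∀ s, 1 < s → Summable fun q => w q s)
    (hbdd : ∀ q, ∃ C, ∀ s, 1 < s → w q s ≤ C)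
    (f : ℕ) (hf : 0 < f) (m : P → ℕ) (hm : ∀ q, m q ∣ f)
    (hdens : ∀ d ∈ f.divisors,
      (fun s : ℝ => (∑' q : {q // d ∣ m q}, w q s) - (1 / (d : ℝ)) * Real.log (1 / (s - 1)))
        =O[𝓝[>] 1] (fun _ => (1 : ℝ))) :
    {q | m q = 1}.Infinite := by
  classical
  intro hfin
  set c : ℝ := ∑ d ∈ f.divisors, ((moebius d : ℤ) : ℝ) * (1 / (d : ℝ)) with hc
  have hcpos : 0 < c := sum_moebius_div_pos hf
  -- the sum over `m q = 1`
  let T : ℝ → ℝ := fun s => ∑' q : {q // m q = 1}, w q s
  -- key identity for `s > 1`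
  have key : ∀ s, 1 < s → T s = ∑ d ∈ f.divisors, ((moebius d : ℤ) : ℝ) *
      ∑' q : {q // d ∣ m q}, w q s := by
    intro s hs
    have hS : ∀ d, Summable fun q => ({q | d ∣ m q} : Set P).indicator (fun q => w q s) q :=
      fun d => (hsum s hs).indicator _
    have e1 : ∀ d, (∑' q : {q // d ∣ m q}, w q s) =
        ∑' q, ({q | d ∣ m q} : Set P).indicator (fun q => w q s) q := fun d =>
      tsum_subtype ({q | d ∣ m q} : Set P) (fun q => w q s)
    have e2 : T s = ∑' q, ({q | m q = 1} : Set P).indicator (fun q => w q s) q :=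
      tsum_subtype ({q | m q = 1} : Set P) (fun q => w q s)
    rw [e2]
    simp_rw [e1, ← tsum_mul_left]
    rw [← Summable.tsum_finsetSum (fun d _ => (hS d).mul_left _)]
    refine tsum_congr fun q => ?_
    have := sum_moebius_ite hf.ne' (hm q)
    simp only [Set.indicator_apply, Set.mem_ofPred_eq]
    calc (if m q = 1 then w q s else 0) = (if m q = 1 then 1 else 0) * w q s := by
          split_ifs <;> simp
      _ = (∑ d ∈ f.divisors, (if d ∣ m q then ((moebius d : ℤ) : ℝ) else 0)) * w q s := by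
          rw [this]
      _ = _ := by
          rw [Finset.sum_mul]
          refine Finset.sum_congr rfl fun d _ => ?_
          split_ifs <;> simp
  -- hence `T s - c log(1/(s-1)) = O(1)`
  have hO : (fun s : ℝ => T s - c * Real.log (1 / (s - 1))) =O[𝓝[>] 1] (fun _ => (1 : ℝ)) := by
    have h1 : (fun s : ℝ => ∑ d ∈ f.divisors, ((moebius d : ℤ) : ℝ) *
        ((∑' q : {q // d ∣ m q}, w q s) - (1 / (d : ℝ)) * Real.log (1 / (s - 1))))
        =O[𝓝[>] 1] (fun _ => (1 : ℝ)) := by
      have := IsBigO.sum (l := 𝓝[>] (1 : ℝ)) (g := fun _ : ℝ => (1 : ℝ)) (s := f.divisors)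
        (A := fun d s => ((moebius d : ℤ) : ℝ) *
          ((∑' q : {q // d ∣ m q}, w q s) - (1 / (d : ℝ)) * Real.log (1 / (s - 1))))
        (fun d hd => (hdens d hd).const_mul_left _)
      refine this.congr_left fun s => ?_
      simp
    refine h1.congr' ?_ EventuallyEq.rfl
    filter_upwards [self_mem_nhdsWithin] with s hs
    rw [key s hs, hc, Finset.sum_mul, ← Finset.sum_sub_distrib]
    refine Finset.sum_congr rfl fun d _ => ?_
    ring
  -- but `T` is bounded when `{q | m q = 1}` is finite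
  have hTb : T =O[𝓝[>] 1] (fun _ => (1 : ℝ)) := by
    have : Finite {q // m q = 1} := hfin
    have : Fintype {q // m q = 1} := Fintype.ofFinite _
    choose C hC using hbdd
    refine IsBigO.of_bound (∑ q : {q // m q = 1}, C q) ?_
    filter_upwards [self_mem_nhdsWithin] with s hs
    have hT : T s = ∑ q : {q // m q = 1}, w q s := tsum_fintype _
    have h0 : 0 ≤ T s := by
      rw [hT]; exact Finset.sum_nonneg fun q _ => hw q s hs
    rw [Real.norm_of_nonneg h0, norm_one, mul_one, hT]
    exact Finset.sum_le_sum fun q _ => hC q s hs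
  have hlog : (fun s : ℝ => c * Real.log (1 / (s - 1))) =O[𝓝[>] 1] (fun _ => (1 : ℝ)) := by
    have := hTb.sub hO
    refine this.congr_left fun s => ?_
    ring
  have hb := hlog.isBoundedUnder_le
  have ht : Tendsto (norm ∘ fun s : ℝ => c * Real.log (1 / (s - 1))) (𝓝[>] 1) atTop :=
    tendsto_norm_atTop_atTop.comp (tendsto_log_one_div_sub_one.const_mul_atTop hcpos)
  exact not_isBoundedUnder_of_tendsto_atTop ht hb

end Fermat.Agent.S30.Density.CyclicCore
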