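import Mathlib

/-!
# K-1c (C3): the Frobenius of an inert unramified prime generates the Galois group

`L/M` Galois extension of number fields, `q` a nonzero prime of `𝓞 M` which is unramified in `L`
and has exactly one prime `Q` of `𝓞 L` above it.  Then any arithmetic Frobenius `φ` at `Q` has
order `[L : M]`; if `Gal(L/M)` is generated by `σ` then `φ = σ ^ k` with `k` prime to the order
of `σ`.
-/

namespace Fermat.Agent.S30.Density.CyclicFrob

open NumberField Polynomial

open scoped Pointwise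

section Group

variable {G : Type*} [Group G] [Finite G]

/-- In a finite cyclic group generated by `σ`, an element of full order is `σ ^ k` with `k` prime
to the order of `σ`. -/
theorem exists_coprime_pow_eq (σ : G) (hσ : ∀ τ, τ ∈ Subgroup.zpowers σ) (φ : G)
    (hφ : orderOf φ = Nat.card G) : ∃ k : ℕ, Nat.Coprime k (orderOf σ) ∧ φ = σ ^ k := by
  have hf : orderOf σ = Nat.card G := orderOf_eq_card_of_forall_mem_zpowers hσ
  have hfpos : 0 < orderOf σ := orderOf_pos σ
  obtain ⟨a, rfl⟩ := mem_powers_iff_mem_zpowers.mpr (hσ φ)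
  refine ⟨a, ?_, rfl⟩
  have h1 : orderOf (σ ^ a) = orderOf σ / (orderOf σ).gcd a := orderOf_pow σ
  rw [hφ, ← hf] at h1
  have h2 : (orderOf σ).gcd a = 1 := by
    rcases Nat.div_eq_self.mp h1.symm with h | h
    · omega
    · exact h
  exact (Nat.coprime_comm.mp h2)

omit [Finite G] in
/-- A subgroup of cardinality one is trivial (element form). -/
theorem eq_one_of_card_eq_one {S : Subgroup G} (h : Nat.card S = 1) {g : G} (hg : g ∈ S) :
    g = 1 := by
  have := (Nat.card_eq_one_iff_unique.mp h).1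
  have h1 : (⟨g, hg⟩ : S) = 1 := Subsingleton.elim _ _
  exact congrArg Subtype.val h1

end Group

section Ring

variable {R S G : Type*} [CommRing R] [CommRing S] [Algebra R S] [Group G]
  [MulSemiringAction G S] [SMulCommClass G R S]

/-- Iterating the Frobenius congruence. -/
theorem frob_pow_sub_mem {φ : G} {Q : Ideal S} (h : IsArithFrobAt R φ Q) (j : ℕ) (x : S) :
    (φ ^ j) • x - x ^ (Nat.card (R ⧸ Q.under R)) ^ j ∈ Q := by
  induction j generalizing x with
  | zero => simp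
  | succ j ih =>
    set N := Nat.card (R ⧸ Q.under R) with hN
    have h1 : φ • ((φ ^ j) • x) - ((φ ^ j) • x) ^ N ∈ Q := h ((φ ^ j) • x)
    have h2 : ((φ ^ j) • x) ^ N - (x ^ N ^ j) ^ N ∈ Q :=
      Ideal.mem_of_dvd Q (sub_dvd_pow_sub_pow _ _ N) (ih x)
    have h3 : (φ ^ (j + 1)) • x - x ^ N ^ (j + 1) =
        (φ • ((φ ^ j) • x) - ((φ ^ j) • x) ^ N) + (((φ ^ j) • x) ^ N - (x ^ N ^ j) ^ N) := by
      rw [pow_succ' φ j, mul_smul, pow_succ N j, pow_mul]
      ring
    rw [h3]
    exact Q.add_mem h1 h2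

end Ring

section Inertia

variable {R S G : Type*} [CommRing R] [CommRing S] [Algebra R S] [Group G]
  [MulSemiringAction G S] [IsGaloisGroup G R S] [Finite G] [IsDomain R] [IsDomain S]
  [Module.Finite R S] [Module.Flat R S]

/-- If `p` is unramified in `S` then the inertia group of a prime above `p` is trivial. -/
theorem eq_one_of_forall_sub_mem (p : Ideal R) (P : Ideal S) [P.LiesOver p] [p.IsPrime]
    [P.IsPrime] [PerfectField p.ResidueField] (hunr : p.ramificationIdxIn S = 1) {ρ : G}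
    (hρ : ∀ x : S, ρ • x - x ∈ P) : ρ = 1 := by
  have h1 : Nat.card (Ideal.inertia G P) = 1 := by
    rw [Ideal.card_inertia_eq_ramificationIdxIn p P, hunr]
  exact eq_one_of_card_eq_one h1 (AddSubgroup.mem_inertia.mpr hρ)

end Inertia

section NumberField

variable {M L : Type*} [Field M] [Field L] [NumberField M] [NumberField L] [Algebra M L]
  [IsGalois M L]

/-- The Frobenius at an inert unramified prime has order `[L : M]`. -/
theorem orderOf_frob (q : Ideal (𝓞 M)) [q.IsMaximal] (hq : q ≠ ⊥) (Q : Ideal (𝓞 L)) [Q.IsPrime]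
    [Q.LiesOver q] (hunr : q.ramificationIdxIn (𝓞 L) = 1)
    (hone : (q.primesOver (𝓞 L)).ncard = 1) {φ : Gal(L/M)}
    (h : IsArithFrobAt (𝓞 M) φ Q) : orderOf φ = Nat.card Gal(L/M) := by
  classical
  have hfin : Finite (𝓞 M ⧸ q) := Ring.HasFiniteQuotients.finiteQuotient hq
  have hQmax : Q.IsMaximal := Ideal.IsMaximal.of_liesOver_isMaximal Q q
  have hQne : Q ≠ ⊥ := Ideal.ne_bot_of_liesOver_of_ne_bot hq Q
  have hfinQ : Finite (𝓞 L ⧸ Q) := Ring.HasFiniteQuotients.finiteQuotient hQne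
  -- the inertia degree is the full degree
  have hG := Ideal.ncard_primesOver_mul_ramificationIdxIn_mul_inertiaDegIn q (𝓞 L) Gal(L/M)
  rw [hone, hunr, one_mul, one_mul, Ideal.inertiaDegIn_eq_inertiaDeg q Q Gal(L/M)] at hG
  set f := Q.inertiaDeg (𝓞 M) with hf
  set n := orderOf φ with hn
  have hnpos : 0 < n := orderOf_pos φ
  have hdvd : n ∣ f := hG ▸ orderOf_dvd_natCard φ
  have hfpos : 0 < f := Ideal.inertiaDeg_pos Q _
  -- cardinalities
  have hunder : Q.under (𝓞 M) = q := (Ideal.over_def Q q).symm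
  set N := Nat.card (𝓞 M ⧸ q) with hN
  have hN1 : 1 < N := Finite.one_lt_card
  have hcard : N ^ f = Nat.card (𝓞 L ⧸ Q) := by
    have := Ideal.cardQuot_pow_inertiaDeg q Q
    simpa [Submodule.cardQuot_apply] using this
  -- every element of the residue field is fixed by the `N ^ n`-th power map
  have hpow : ∀ y : 𝓞 L ⧸ Q, y ^ N ^ n = y := by
    intro y
    obtain ⟨x, rfl⟩ := Ideal.Quotient.mk_surjective y
    have h1 := frob_pow_sub_mem h n x
    rw [hunder, pow_orderOf_eq_one, one_smul] at h1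
    rw [← map_pow]
    exact (Ideal.Quotient.eq.mpr h1).symm
  -- root counting
  let _ : Field (𝓞 L ⧸ Q) := Ideal.Quotient.field Q
  let _ : Fintype (𝓞 L ⧸ Q) := Fintype.ofFinite _
  have hle : Fintype.card (𝓞 L ⧸ Q) ≤ N ^ n := by
    have hdeg : (X ^ N ^ n - X : (𝓞 L ⧸ Q)[X]).natDegree = N ^ n :=
      FiniteField.X_pow_card_pow_sub_X_natDegree_eq _ hnpos.ne' hN1
    have hne : (X ^ N ^ n - X : (𝓞 L ⧸ Q)[X]) ≠ 0 :=
      FiniteField.X_pow_card_pow_sub_X_ne_zero _ hnpos.ne' hN1
    have := card_le_degree_of_subset_roots (p := (X ^ N ^ n - X : (𝓞 L ⧸ Q)[X]))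
      (Z := Finset.univ) (fun y _ => by
        rw [mem_roots hne, IsRoot, eval_sub, eval_pow, eval_X, hpow y, sub_self])
    rwa [hdeg, Finset.card_univ] at this
  rw [← Nat.card_eq_fintype_card, ← hcard, Nat.pow_le_pow_iff_right hN1] at hle
  rw [← hG]
  exact Nat.le_antisymm (Nat.le_of_dvd hfpos hdvd) hle

/-- Cyclic case: the Frobenius at an inert unramified prime is a generator `σ ^ k`, `k` prime to
the order of `σ`. -/
theorem exists_coprime_pow_eq_frob (σ : Gal(L/M)) (hσ : ∀ τ, τ ∈ Subgroup.zpowers σ)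
    (q : Ideal (𝓞 M)) [q.IsMaximal] (hq : q ≠ ⊥) (Q : Ideal (𝓞 L)) [Q.IsPrime] [Q.LiesOver q]
    (hunr : q.ramificationIdxIn (𝓞 L) = 1) (hone : (q.primesOver (𝓞 L)).ncard = 1) :
    ∃ k : ℕ, Nat.Coprime k (orderOf σ) ∧ IsArithFrobAt (𝓞 M) (σ ^ k) Q := by
  have hQne : Q ≠ ⊥ := Ideal.ne_bot_of_liesOver_of_ne_bot hq Q
  have hfinQ : Finite (𝓞 L ⧸ Q) := Ring.HasFiniteQuotients.finiteQuotient hQne
  obtain ⟨φ, hφ⟩ := IsArithFrobAt.exists_of_isInvariant (𝓞 M) Gal(L/M) Q
  obtain ⟨k, hk, rfl⟩ := exists_coprime_pow_eq σ hσ φ (orderOf_frob q hq Q hunr hone hφ)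
  exact ⟨k, hk, hφ⟩

end NumberField

end Fermat.Agent.S30.Density.CyclicFrob
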