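import Mathlib

/-!
# K-1c (C2): splitting in the subfields of a cyclic extension

`L/M` Galois extension of number fields, `H ≤ Gal(L/M)`, `E = fixedField H`.
* `stabilizer_le_iff` : for a prime `Q` of `𝓞 L` over `q`, the decomposition group of `Q`
  is contained in `H` iff the prime `Q ∩ 𝓞 E` has `e = f = 1` over `q`.
* `le_zpowers_pow_iff` : in a finite cyclic group generated by `σ`, a subgroup `S` is contained
  in `⟨σ ^ d⟩` (`d ∣ orderOf σ`) iff `d ∣ S.index`.
* `splits_iff_dvd` : if `σ` generates `Gal(L/M)` and `d ∣ orderOf σ` then `q` splits completely in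
  `fixedField ⟨σ ^ d⟩` iff `d` divides the number of primes of `𝓞 L` over `q`.
-/

namespace Fermat.Agent.S30.Density.CyclicSplit

open NumberField IntermediateField

open scoped Pointwise

section Group

variable {G : Type*} [Group G] [Finite G]

/-- In a finite cyclic group generated by `σ`, `S ≤ ⟨σ ^ d⟩ ↔ d ∣ S.index` for `d ∣ orderOf σ`. -/
theorem le_zpowers_pow_iff (σ : G) (hσ : ∀ τ, τ ∈ Subgroup.zpowers σ) (S : Subgroup G) {d : ℕ}
    (hd : d ∣ orderOf σ) : S ≤ Subgroup.zpowers (σ ^ d) ↔ d ∣ S.index := by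
  have hf : orderOf σ = Nat.card G := orderOf_eq_card_of_forall_mem_zpowers hσ
  have hfpos : 0 < orderOf σ := orderOf_pos σ
  have hd0 : d ≠ 0 := by
    rintro rfl
    exact hfpos.ne' (zero_dvd_iff.mp hd)
  have hSm : Nat.card S * S.index = orderOf σ := by rw [hf]; exact S.card_mul_index
  have hSpos : 0 < Nat.card S := Nat.card_pos
  constructor
  · intro hle
    have h1 : Nat.card S ∣ orderOf σ / d := by
      have := Subgroup.card_dvd_of_le hle
      rwa [Nat.card_zpowers, orderOf_pow_of_dvd hd0 hd] at this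
    obtain ⟨c, hc⟩ := h1
    obtain ⟨b, hb⟩ := hd
    have hb' : orderOf σ / d = b := by
      rw [hb]; exact Nat.mul_div_cancel_left b (Nat.pos_of_ne_zero hd0)
    rw [hb'] at hc
    refine ⟨c, ?_⟩
    have : Nat.card S * S.index = Nat.card S * (d * c) := by
      rw [hSm, hb, hc]; ring
    exact Nat.eq_of_mul_eq_mul_left hSpos this
  · rintro ⟨c, hc⟩ x hx
    obtain ⟨a, rfl⟩ := (mem_powers_iff_mem_zpowers.mpr (hσ x))
    have h1 : (σ ^ a) ^ Nat.card S = 1 := by
      have := pow_card_eq_one' (G := S) (x := ⟨σ ^ a, hx⟩)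
      exact congrArg Subtype.val this
    rw [← pow_mul, ← orderOf_dvd_iff_pow_eq_one, ← hSm] at h1
    have h2 : S.index ∣ a := by
      rw [mul_comm a] at h1
      exact Nat.dvd_of_mul_dvd_mul_left hSpos h1
    obtain ⟨e, he⟩ := h2
    refine Subgroup.mem_zpowers_iff.mpr ⟨(c * e : ℕ), ?_⟩
    rw [zpow_natCast, ← pow_mul, he, hc]
    congr 1; ring

end Group

section NumberField

variable {M L : Type*} [Field M] [Field L] [NumberField M] [NumberField L] [Algebra M L]
  [IsGalois M L]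

set_option linter.style.haveILetI false in
/-- The decomposition group of `Q` is contained in `H` iff the prime of `fixedField H` below `Q`
has ramification index and inertia degree one over `𝓞 M`. -/
theorem stabilizer_le_iff (H : Subgroup Gal(L/M)) (q : Ideal (𝓞 M)) [q.IsMaximal] (hq : q ≠ ⊥)
    (Q : Ideal (𝓞 L)) [Q.IsPrime] [Q.LiesOver q] :
    MulAction.stabilizer Gal(L/M) Q ≤ H ↔
      (Q.under (𝓞 (fixedField H))).ramificationIdx (𝓞 M) = 1 ∧
        (Q.under (𝓞 (fixedField H))).inertiaDeg (𝓞 M) = 1 := by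
  set E := fixedField H with hE
  set Q' : Ideal (𝓞 E) := Q.under (𝓞 E) with hQ'
  have : Finite (𝓞 M ⧸ q) := Ring.HasFiniteQuotients.finiteQuotient hq
  have hQ'ne : Q' ≠ ⊥ := Ideal.ne_bot_of_liesOver_of_ne_bot hq Q'
  have : Q'.IsMaximal := Ring.DimensionLEOne.maximalOfPrime hQ'ne inferInstance
  have : Finite (𝓞 E ⧸ Q') := Ring.HasFiniteQuotients.finiteQuotient hQ'ne
  have : IsGaloisGroup H E L := IsGaloisGroup.subgroup Gal(L/M) M L H
  letI act : MulSemiringAction H (𝓞 L) := RingOfIntegers.instMulSemiringAction L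
  -- cardinalities of the two decomposition groups
  have ha : Nat.card (MulAction.stabilizer Gal(L/M) Q) =
      Q.ramificationIdx (𝓞 M) * Q.inertiaDeg (𝓞 M) := by
    rw [Ideal.card_stabilizer_eq q Q, Ideal.ramificationIdxIn_eq_ramificationIdx q Q Gal(L/M),
      Ideal.inertiaDegIn_eq_inertiaDeg q Q Gal(L/M)]
  have he : Q.ramificationIdx (𝓞 M) = Q'.ramificationIdx (𝓞 M) * Q.ramificationIdx (𝓞 E) :=
    Ideal.ramificationIdx_tower Q' Q
  have hf : Q.inertiaDeg (𝓞 M) = Q'.inertiaDeg (𝓞 M) * Q.inertiaDeg (𝓞 E) :=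
    Ideal.inertiaDeg_tower Q' Q
  -- the decomposition group inside `H`
  obtain ⟨SH, hSH, hb⟩ : ∃ SH : Subgroup H,
      (∀ g : H, g ∈ SH ↔ (g : Gal(L/M)) ∈ MulAction.stabilizer Gal(L/M) Q) ∧
        Nat.card SH = Q.ramificationIdx (𝓞 E) * Q.inertiaDeg (𝓞 E) := by
    refine ⟨_, ?_, (Ideal.card_stabilizer_eq (G := H) Q' Q).trans ?_⟩
    · intro g
      simp only [MulAction.mem_stabilizer_iff]
      refine Iff.of_eq (congrArg (fun I => I = Q) ?_)
      ext x
      simp only [Ideal.pointwise_smul_def]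
      rfl
    · rw [Ideal.ramificationIdxIn_eq_ramificationIdx Q' Q H,
        Ideal.inertiaDegIn_eq_inertiaDeg Q' Q H]
  have hstab : SH = (MulAction.stabilizer Gal(L/M) Q).subgroupOf H := by
    ext g
    rw [Subgroup.mem_subgroupOf]
    exact hSH g
  have hcard : Nat.card SH =
      Nat.card (MulAction.stabilizer Gal(L/M) Q ⊓ H : Subgroup Gal(L/M)) := by
    rw [hstab, ← Subgroup.inf_subgroupOf_right]
    exact Nat.card_congr (Subgroup.subgroupOfEquivOfLe inf_le_right).toEquiv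
  have hbpos : 0 < Q.ramificationIdx (𝓞 E) * Q.inertiaDeg (𝓞 E) :=
    Nat.mul_pos (Ideal.ramificationIdx_pos Q _) (Ideal.inertiaDeg_pos Q _)
  have hrel : Nat.card (MulAction.stabilizer Gal(L/M) Q) =
      (Q'.ramificationIdx (𝓞 M) * Q'.inertiaDeg (𝓞 M)) *
        Nat.card (MulAction.stabilizer Gal(L/M) Q ⊓ H : Subgroup Gal(L/M)) := by
    rw [← hcard, ha, hb, he, hf]; ring
  have hcpos : 0 < Nat.card (MulAction.stabilizer Gal(L/M) Q ⊓ H : Subgroup Gal(L/M)) := by
    rw [← hcard, hb]; exact hbpos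
  constructor
  · intro hle
    have : MulAction.stabilizer Gal(L/M) Q ⊓ H = MulAction.stabilizer Gal(L/M) Q :=
      inf_eq_left.mpr hle
    rw [this] at hrel hcpos
    have h1 : Q'.ramificationIdx (𝓞 M) * Q'.inertiaDeg (𝓞 M) = 1 := by
      have : 1 * Nat.card (MulAction.stabilizer Gal(L/M) Q) =
          (Q'.ramificationIdx (𝓞 M) * Q'.inertiaDeg (𝓞 M)) *
            Nat.card (MulAction.stabilizer Gal(L/M) Q) := by rw [one_mul]; exact hrel
      exact (Nat.eq_of_mul_eq_mul_right hcpos this).symm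
    exact ⟨Nat.eq_one_of_mul_eq_one_right h1, Nat.eq_one_of_mul_eq_one_left h1⟩
  · rintro ⟨h1, h2⟩
    rw [h1, h2, one_mul, one_mul] at hrel
    have := Subgroup.eq_of_le_of_card_ge
      (inf_le_left : MulAction.stabilizer Gal(L/M) Q ⊓ H ≤ MulAction.stabilizer Gal(L/M) Q)
      hrel.le
    exact inf_eq_left.mp this

/-- The number of primes over `q` is the index of the decomposition group of any of them. -/
theorem index_stabilizer_eq (q : Ideal (𝓞 M)) (Q : Ideal (𝓞 L)) [Q.IsPrime] [Q.LiesOver q] :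
    (MulAction.stabilizer Gal(L/M) Q).index = (q.primesOver (𝓞 L)).ncard := by
  rw [MulAction.index_stabilizer,
    Algebra.IsInvariant.orbit_eq_primesOver (𝓞 M) (𝓞 L) Gal(L/M) q Q]

/-- Cyclic case: `q` splits completely in the subfield of degree `d` iff `d` divides the number of
primes of `L` above `q`. -/
theorem splits_iff_dvd (σ : Gal(L/M)) (hσ : ∀ τ, τ ∈ Subgroup.zpowers σ) {d : ℕ}
    (hd : d ∣ orderOf σ) (q : Ideal (𝓞 M)) [q.IsMaximal] (hq : q ≠ ⊥) :
    (∀ Q' : Ideal (𝓞 (fixedField (Subgroup.zpowers (σ ^ d)))), Q'.IsPrime → Q'.LiesOver q →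
        Q'.ramificationIdx (𝓞 M) = 1 ∧ Q'.inertiaDeg (𝓞 M) = 1) ↔
      d ∣ (q.primesOver (𝓞 L)).ncard := by
  constructor
  · intro h
    obtain ⟨⟨Q, hQ1, hQ2⟩⟩ := (inferInstance : Nonempty (q.primesOver (𝓞 L)))
    have h1 := h (Q.under _) inferInstance inferInstance
    rw [← stabilizer_le_iff _ q hq Q, le_zpowers_pow_iff σ hσ _ hd, index_stabilizer_eq q Q] at h1
    exact h1
  · intro h Q' hQ'1 hQ'2
    obtain ⟨⟨Q, hQ1, hQ2⟩⟩ := (inferInstance : Nonempty (Q'.primesOver (𝓞 L)))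
    have : Q.LiesOver q := Ideal.LiesOver.trans Q Q' q
    have h1 : MulAction.stabilizer Gal(L/M) Q ≤ Subgroup.zpowers (σ ^ d) := by
      rw [le_zpowers_pow_iff σ hσ _ hd, index_stabilizer_eq q Q]; exact h
    rw [stabilizer_le_iff _ q hq Q] at h1
    have hu : Q.under (𝓞 (fixedField (Subgroup.zpowers (σ ^ d)))) = Q' := (hQ2.over).symm
    rwa [hu] at h1

end NumberField

end Fermat.Agent.S30.Density.CyclicSplit
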