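import Mathlib

/-!
# K-1d (D1): Galois set-up for Frobenius' density theorem

* absolute part: `L / ℚ` finite Galois, `σ : Gal(L/ℚ)`, `fixM σ := L^⟨σ⟩`, `sigmaM σ : L ≃ₐ[fixM σ] L`
  (the same map), `zpowers (sigmaM σ) = ⊤`, `orderOf (sigmaM σ) = orderOf σ`;
* relative part: `L / M` finite Galois with `Gal(L/M) = ⟨τ⟩`, `Ed τ d := L^⟨τ^d⟩` is Galois over `M`
  of degree `d` for `d ∣ orderOf τ`.
-/

set_option autoImplicit false
set_option linter.unusedSectionVars false
set_option linter.style.haveILetI false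

noncomputable section

namespace Fermat.Agent.S30.Density.FrobSetup

open IntermediateField

/-! ### Relative part -/

section Relative

variable {M L : Type*} [Field M] [Field L] [Algebra M L] [FiniteDimensional M L] [IsGalois M L]
  (τ : L ≃ₐ[M] L)

/-- The fixed field of `⟨τ^d⟩`. -/
abbrev Ed (d : ℕ) : IntermediateField M L := fixedField (Subgroup.zpowers (τ ^ d))

theorem orderOf_eq_finrank (hτ : Subgroup.zpowers τ = ⊤) : orderOf τ = Module.finrank M L := by
  rw [← IsGalois.card_aut_eq_finrank, ← Nat.card_zpowers, hτ, Nat.card_congr Subgroup.topEquiv.toEquiv]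

theorem commute_of_zpowers_eq_top (hτ : Subgroup.zpowers τ = ⊤) (a b : L ≃ₐ[M] L) :
    a * b = b * a := by
  have ha : a ∈ Subgroup.zpowers τ := hτ ▸ Subgroup.mem_top a
  have hb : b ∈ Subgroup.zpowers τ := hτ ▸ Subgroup.mem_top b
  obtain ⟨i, rfl⟩ := Subgroup.mem_zpowers_iff.mp ha
  obtain ⟨j, rfl⟩ := Subgroup.mem_zpowers_iff.mp hb
  rw [← zpow_add, ← zpow_add, add_comm]

theorem normal_of_zpowers_eq_top (hτ : Subgroup.zpowers τ = ⊤) (H : Subgroup (L ≃ₐ[M] L)) :
    H.Normal := by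
  refine ⟨fun n hn g => ?_⟩
  rw [commute_of_zpowers_eq_top τ hτ g n, mul_assoc, mul_inv_cancel, mul_one]
  exact hn

theorem isGalois_Ed (hτ : Subgroup.zpowers τ = ⊤) (d : ℕ) : IsGalois M (Ed τ d) := by
  haveI := normal_of_zpowers_eq_top τ hτ (Subgroup.zpowers (τ ^ d))
  exact IsGalois.of_fixedField_normal_subgroup _

theorem finrank_Ed_top (d : ℕ) (hd : d ∣ orderOf τ) (hτ0 : 0 < orderOf τ) :
    Module.finrank (Ed τ d) L = orderOf τ / d := by
  have hd0 : d ≠ 0 := by
    rintro rfl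
    rw [zero_dvd_iff] at hd
    omega
  rw [finrank_fixedField_eq_card, Nat.card_zpowers, orderOf_pow' τ hd0, Nat.gcd_eq_right hd]

theorem finrank_Ed (hτ : Subgroup.zpowers τ = ⊤) (d : ℕ) (hd : d ∣ orderOf τ) :
    Module.finrank M (Ed τ d) = d := by
  have hτ0 : 0 < orderOf τ := by
    rw [orderOf_eq_finrank τ hτ]
    exact Module.finrank_pos
  have h1 := Module.finrank_mul_finrank M (Ed τ d) L
  rw [finrank_Ed_top τ d hd hτ0, ← orderOf_eq_finrank τ hτ] at h1
  obtain ⟨c, hc⟩ := hd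
  have hd0 : 0 < d := by
    rcases Nat.eq_zero_or_pos d with h | h
    · rw [h, zero_mul] at hc; omega
    · exact h
  have hc0 : 0 < c := by
    rcases Nat.eq_zero_or_pos c with h | h
    · rw [h, mul_zero] at hc; omega
    · exact h
  rw [hc, Nat.mul_div_cancel_left c hd0] at h1
  exact Nat.eq_of_mul_eq_mul_right hc0 h1

end Relative

/-! ### Absolute part -/

section Absolute

variable {L : Type*} [Field L] [NumberField L] [IsGalois ℚ L] (σ : L ≃ₐ[ℚ] L)

/-- `M = L^⟨σ⟩`. -/
abbrev fixM : IntermediateField ℚ L := fixedField (Subgroup.zpowers σ)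

/-- `σ` as an automorphism of `L` over `M = L^⟨σ⟩`. -/
def sigmaM : L ≃ₐ[fixM σ] L :=
  { σ with
    commutes' := fun x => by
      have := x.2
      exact this ⟨σ, Subgroup.mem_zpowers σ⟩ }

@[simp] theorem sigmaM_apply (x : L) : sigmaM σ x = σ x := rfl

theorem sigmaM_pow_apply (k : ℕ) (x : L) : (sigmaM σ ^ k) x = (σ ^ k) x := by
  induction k generalizing x with
  | zero => simp
  | succ n ih =>
    rw [pow_succ, pow_succ, AlgEquiv.mul_apply, AlgEquiv.mul_apply, ih, sigmaM_apply]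

theorem sigmaM_pow_eq_one_iff (k : ℕ) : sigmaM σ ^ k = 1 ↔ σ ^ k = 1 := by
  constructor
  · intro h
    ext x
    rw [← sigmaM_pow_apply, h]
    rfl
  · intro h
    ext x
    rw [sigmaM_pow_apply, h]
    rfl

theorem orderOf_sigmaM : orderOf (sigmaM σ) = orderOf σ := by
  apply Nat.dvd_antisymm
  · rw [orderOf_dvd_iff_pow_eq_one, sigmaM_pow_eq_one_iff]
    exact pow_orderOf_eq_one σ
  · rw [orderOf_dvd_iff_pow_eq_one, ← sigmaM_pow_eq_one_iff]
    exact pow_orderOf_eq_one _

theorem zpowers_sigmaM : Subgroup.zpowers (sigmaM σ) = ⊤ := by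
  apply Subgroup.eq_top_of_card_eq
  rw [Nat.card_zpowers, orderOf_sigmaM, IsGalois.card_aut_eq_finrank,
    finrank_fixedField_eq_card, Nat.card_zpowers]

end Absolute

end Fermat.Agent.S30.Density.FrobSetup
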