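import Fermat.Agent.S30.Density.Splitting
import Fermat.Agent.S30.Density.FrobSetup
import Fermat.Agent.S30.Density.CyclicSplit
import Fermat.Agent.S30.Density.CyclicFrob

/-!
# K-1c: the cyclic lemmas (C2), (C3) in the shapes used by K-1d

* `splitsCompletely_Ed_iff` : `Splitting.SplitsCompletely (Ed τ d) q ↔ d ∣ #(primes of L over q)`.
* `ncard_primesOver_dvd_orderOf` : `#(primes of L over q) ∣ orderOf τ`.
* `isArithFrobAt_int` : a Frobenius over `𝓞 (fixM σ)` at a prime `Q` whose prime below has the same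
  residue cardinality as the rational prime below is a Frobenius over `ℤ`.
* `exists_isArithFrobAt_int` : the end form of (C3).
-/

namespace Fermat.Agent.S30.Density.CyclicExtra

open NumberField IntermediateField IsDedekindDomain

open scoped Pointwise

section Relative

variable {M L : Type*} [Field M] [Field L] [NumberField M] [NumberField L] [Algebra M L]
  [IsGalois M L]

omit [NumberField M] [NumberField L] [IsGalois M L] in
theorem forall_mem_zpowers {τ : L ≃ₐ[M] L} (hτ : Subgroup.zpowers τ = ⊤) (ρ : L ≃ₐ[M] L) :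
    ρ ∈ Subgroup.zpowers τ := hτ ▸ Subgroup.mem_top ρ

/-- (C2) in the shape of `Splitting.SplitsCompletely`. -/
theorem splitsCompletely_Ed_iff (τ : L ≃ₐ[M] L) (hτ : Subgroup.zpowers τ = ⊤) {d : ℕ}
    (hd : d ∣ orderOf τ) (q : HeightOneSpectrum (𝓞 M)) :
    Splitting.SplitsCompletely (FrobSetup.Ed τ d) q.asIdeal ↔
      d ∣ (q.asIdeal.primesOver (𝓞 L)).ncard := by
  have : q.asIdeal.IsMaximal := q.isMaximal
  exact CyclicSplit.splits_iff_dvd τ (forall_mem_zpowers hτ) hd q.asIdeal q.ne_bot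

/-- The number of primes above `q` divides the order of the generator. -/
theorem ncard_primesOver_dvd_orderOf (τ : L ≃ₐ[M] L) (hτ : Subgroup.zpowers τ = ⊤)
    (q : Ideal (𝓞 M)) [q.IsPrime] : (q.primesOver (𝓞 L)).ncard ∣ orderOf τ := by
  rw [orderOf_eq_card_of_forall_mem_zpowers (forall_mem_zpowers hτ),
    ← Ideal.ncard_primesOver_mul_ramificationIdxIn_mul_inertiaDegIn q (𝓞 L) Gal(L/M)]
  exact dvd_mul_right _ _

end Relative

section Absolute

variable {L : Type*} [Field L] [NumberField L] [IsGalois ℚ L] (σ : L ≃ₐ[ℚ] L)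

/-- Change of base ring for a Frobenius: from `𝓞 (fixM σ)` to `ℤ`. -/
theorem isArithFrobAt_int (k : ℕ) (Q : Ideal (𝓞 L))
    (h : IsArithFrobAt (𝓞 (FrobSetup.fixM σ)) (FrobSetup.sigmaM σ ^ k) Q)
    (hcard : Nat.card (𝓞 (FrobSetup.fixM σ) ⧸ Q.under (𝓞 (FrobSetup.fixM σ))) =
      Nat.card (ℤ ⧸ Q.under ℤ)) :
    IsArithFrobAt ℤ (σ ^ k) Q := by
  intro x
  have h1 := h x
  rw [hcard] at h1
  have h2 : (MulSemiringAction.toAlgHom ℤ (𝓞 L) (σ ^ k)) x =
      (MulSemiringAction.toAlgHom (𝓞 (FrobSetup.fixM σ)) (𝓞 L) (FrobSetup.sigmaM σ ^ k)) x := by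
    apply Subtype.ext
    exact (FrobSetup.sigmaM_pow_apply σ k (x : L)).symm
  rw [h2]
  exact h1

/-- (C3), end form: a degree-one prime `q` of `M = L^⟨σ⟩` (norm `l`), unramified in `L` and with a
single prime `Q` of `L` above it, gives `k` prime to the order of `σ` such that `σ ^ k` is a
`ℤ`-Frobenius at `Q`. -/
theorem exists_isArithFrobAt_int (q : Ideal (𝓞 (FrobSetup.fixM σ))) [q.IsMaximal] (hq : q ≠ ⊥)
    (Q : Ideal (𝓞 L)) [Q.IsPrime] [Q.LiesOver q] (l : ℕ) [Q.LiesOver (Ideal.span {(l : ℤ)})]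
    (hl : Ideal.absNorm q = l) (hunr : q.ramificationIdxIn (𝓞 L) = 1)
    (hone : (q.primesOver (𝓞 L)).ncard = 1) :
    ∃ k : ℕ, Nat.Coprime k (orderOf σ) ∧ IsArithFrobAt ℤ (σ ^ k) Q := by
  obtain ⟨k, hk, hF⟩ := CyclicFrob.exists_coprime_pow_eq_frob (FrobSetup.sigmaM σ)
    (forall_mem_zpowers (FrobSetup.zpowers_sigmaM σ)) q hq Q hunr hone
  rw [FrobSetup.orderOf_sigmaM] at hk
  refine ⟨k, hk, isArithFrobAt_int σ k Q hF ?_⟩
  rw [← Ideal.over_def Q q, ← Ideal.over_def Q (Ideal.span {(l : ℤ)}), Int.card_ideal_quot,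
    ← hl, Ideal.absNorm_apply, Submodule.cardQuot_apply]

end Absolute

end Fermat.Agent.S30.Density.CyclicExtra
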