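/-
PROJECT K, slice K-1a (analytic half of the Frobenius density theorem).
The real Dedekind zeta series of a number field as a sum over ideals, its residue at `s = 1`,
and the comparison `∑_v N v ^ (-s) = log ζ_K(s) + O(1)` via finite Euler products.
Mathlib only.
-/
import Mathlib

namespace Fermat.Agent.S30.Density.ZetaEuler

open NumberField Ideal Filter Topology IsDedekindDomain Asymptotics

variable (K : Type*) [Field K] [NumberField K]

/-- The summand of the real Dedekind zeta series (the zero ideal contributes `0 ^ (-s) = 0`). -/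
noncomputable def zterm (s : ℝ) (I : Ideal (𝓞 K)) : ℝ := (absNorm I : ℝ) ^ (-s)

/-- The real Dedekind zeta series, as a sum over all ideals. -/
noncomputable def zetaR (s : ℝ) : ℝ := ∑' I : Ideal (𝓞 K), zterm K s I

theorem zterm_nonneg (s : ℝ) (I : Ideal (𝓞 K)) : 0 ≤ zterm K s I :=
  Real.rpow_nonneg (Nat.cast_nonneg _) _

/-- The number of ideals of norm `n`. -/
noncomputable def cnt (n : ℕ) : ℕ := Nat.card {I : Ideal (𝓞 K) // absNorm I = n}

theorem tendsto_sum_cnt_div :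
    Tendsto (fun n : ℕ ↦ (∑ k ∈ Finset.Icc 1 n, (cnt K k : ℝ)) / n) atTop
      (𝓝 (dedekindZeta_residue K)) := by
  refine ((Ideal.tendsto_norm_le_div_atTop₀ K).comp tendsto_natCast_atTop_atTop).congr fun n ↦ ?_
  simp only [Function.comp_apply, Nat.cast_le, ← Nat.cast_sum, cnt]
  congr
  rw [← add_left_inj 1, ← card_norm_le_eq_card_norm_le_add_one,
    show Finset.Icc 1 n = Finset.Ioc 0 n from Finset.Icc_succ_left_eq_Ioc _ _,
    show 1 = Nat.card {I : Ideal (𝓞 K) // absNorm I = 0} by simp [Ideal.absNorm_eq_zero_iff],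
    Finset.sum_Ioc_add_eq_sum_Icc (n.zero_le),
    ← Finset.card_preimage_eq_sum_card_image_eq (fun k _ ↦ finite_setOfPred_absNorm_eq k)]
  simp [Set.coe_eq_subtype]

theorem lseriesSummable_cnt {s : ℂ} (hs : 1 < s.re) :
    LSeriesSummable (fun n ↦ ((cnt K n : ℝ) : ℂ)) s := by
  refine LSeriesSummable_of_sum_norm_bigO_and_nonneg ?_ (fun _ ↦ Nat.cast_nonneg _) zero_le_one hs
  exact isBigO_atTop_natCast_rpow_of_tendsto_div_rpow (by simpa using tendsto_sum_cnt_div K)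

/-- The real series `∑ n, cnt n * n ^ (-s)` is summable for `s > 1`. -/
theorem summable_cnt_mul {s : ℝ} (hs : 1 < s) :
    Summable fun n : ℕ ↦ (cnt K n : ℝ) * (n : ℝ) ^ (-s) := by
  have h := (lseriesSummable_cnt K (s := (s : ℂ)) (by simpa using hs)).norm
  refine h.congr fun n ↦ ?_
  rw [LSeries.norm_term_eq]
  rcases Nat.eq_zero_or_pos n with rfl | hn
  · have : -s ≠ 0 := by linarith
    simp [Real.zero_rpow this]
  · rw [if_neg hn.ne']
    simp [Real.rpow_neg (Nat.cast_nonneg n), div_eq_mul_inv]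

instance (n : ℕ) : Finite {I : Ideal (𝓞 K) // absNorm I = n} :=
  (finite_setOfPred_absNorm_eq (S := 𝓞 K) n).to_subtype

theorem zterm_sigma (s : ℝ) (x : Σ n : ℕ, {I : Ideal (𝓞 K) // absNorm I = n}) :
    zterm K s (Equiv.sigmaFiberEquiv (fun I : Ideal (𝓞 K) ↦ absNorm I) x) = (x.1 : ℝ) ^ (-s) := by
  obtain ⟨n, I, hI⟩ := x
  simp [zterm, Equiv.sigmaFiberEquiv, hI]

theorem tsum_fibre (s : ℝ) (n : ℕ) :
    ∑' _ : {I : Ideal (𝓞 K) // absNorm I = n}, (n : ℝ) ^ (-s) = (cnt K n : ℝ) * (n : ℝ) ^ (-s) := by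
  rw [tsum_const, cnt, nsmul_eq_mul]

/-- The Dedekind zeta series over ideals converges for real `s > 1`. -/
theorem summable_zterm {s : ℝ} (hs : 1 < s) : Summable (zterm K s) := by
  rw [← (Equiv.sigmaFiberEquiv (fun I : Ideal (𝓞 K) ↦ absNorm I)).summable_iff]
  have h0 : ∀ x : Σ n : ℕ, {I : Ideal (𝓞 K) // absNorm I = n},
      0 ≤ (zterm K s ∘ Equiv.sigmaFiberEquiv (fun I : Ideal (𝓞 K) ↦ absNorm I)) x :=
    fun x ↦ zterm_nonneg K s _
  rw [summable_sigma_of_nonneg h0]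
  refine ⟨fun n ↦ Summable.of_finite, ?_⟩
  refine (summable_cnt_mul K hs).congr fun n ↦ ?_
  rw [← tsum_fibre]
  exact tsum_congr fun I ↦ (zterm_sigma K s ⟨n, I⟩).symm

theorem zetaR_eq_tsum_cnt {s : ℝ} (hs : 1 < s) :
    zetaR K s = ∑' n : ℕ, (cnt K n : ℝ) * (n : ℝ) ^ (-s) := by
  have hsum := summable_zterm K hs
  have hsum' := (Equiv.sigmaFiberEquiv (fun I : Ideal (𝓞 K) ↦ absNorm I)).summable_iff.mpr hsum
  rw [zetaR, ← (Equiv.sigmaFiberEquiv (fun I : Ideal (𝓞 K) ↦ absNorm I)).tsum_eq]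
  refine (hsum'.tsum_sigma).trans ?_
  refine tsum_congr fun n ↦ ?_
  rw [← tsum_fibre]
  exact tsum_congr fun I ↦ zterm_sigma K s ⟨n, I⟩

/-- For real `s > 1`, Mathlib's Dedekind zeta function is the real series over ideals. -/
theorem dedekindZeta_ofReal {s : ℝ} (hs : 1 < s) :
    dedekindZeta K (s : ℂ) = ((zetaR K s : ℝ) : ℂ) := by
  rw [zetaR_eq_tsum_cnt K hs, dedekindZeta, LSeries, Complex.ofReal_tsum]
  refine tsum_congr fun n ↦ ?_
  rcases Nat.eq_zero_or_pos n with rfl | hn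
  · have : -s ≠ 0 := by linarith
    simp [Real.zero_rpow this]
  · rw [LSeries.term_of_ne_zero hn.ne']
    simp only [cnt]
    rw [Complex.ofReal_mul, Real.rpow_neg (Nat.cast_nonneg n), Complex.ofReal_inv,
      Complex.ofReal_cpow (Nat.cast_nonneg n), div_eq_mul_inv]
    simp

/-- **Residue of the real Dedekind zeta series** (Dirichlet's class number formula, from Mathlib). -/
theorem tendsto_sub_one_mul_zetaR :
    Tendsto (fun s : ℝ ↦ (s - 1) * zetaR K s) (𝓝[>] 1) (𝓝 (dedekindZeta_residue K)) := by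
  have h := tendsto_sub_one_mul_dedekindZeta_nhdsGT K
  have h2 : Tendsto (fun s : ℝ ↦ (((s - 1) * zetaR K s : ℝ) : ℂ)) (𝓝[>] 1)
      (𝓝 ((dedekindZeta_residue K : ℝ) : ℂ)) := by
    refine h.congr' ?_
    filter_upwards [self_mem_nhdsWithin] with s hs
    rw [dedekindZeta_ofReal K hs]
    push_cast
    ring
  exact (Complex.continuous_re.tendsto _).comp h2 |>.congr fun s ↦ by simp

/-! ### Finite Euler products -/

variable {K}

/-- The absolute norm of a finite place. -/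
noncomputable abbrev nrm (v : HeightOneSpectrum (𝓞 K)) : ℕ := absNorm v.asIdeal

theorem two_le_nrm (v : HeightOneSpectrum (𝓞 K)) : 2 ≤ nrm v := by
  have h0 : nrm v ≠ 0 := fun h ↦ v.ne_bot (Ideal.absNorm_eq_zero_iff.mp h)
  have h1 : nrm v ≠ 1 := fun h ↦ v.isPrime.ne_top (Ideal.absNorm_eq_one_iff.mp h)
  omega

omit [NumberField K] in
theorem asIdeal_injective :
    Function.Injective (fun v : HeightOneSpectrum (𝓞 K) ↦ v.asIdeal) :=
  fun _ _ h ↦ HeightOneSpectrum.ext h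

theorem eq_of_asIdeal_dvd {v w : HeightOneSpectrum (𝓞 K)} (h : v.asIdeal ∣ w.asIdeal) :
    w = v := by
  have hle : w.asIdeal ≤ v.asIdeal := Ideal.le_of_dvd h
  exact HeightOneSpectrum.ext (w.isMaximal.eq_of_le v.isPrime.ne_top hle)

/-- The ideal with prescribed exponents at the finite set `T` of places. -/
noncomputable def idealOf (T : Finset (HeightOneSpectrum (𝓞 K))) (e : T → ℕ) : Ideal (𝓞 K) :=
  ∏ i : T, i.1.asIdeal ^ e i

theorem emultiplicity_idealOf (T : Finset (HeightOneSpectrum (𝓞 K))) (e : T → ℕ) (j : T) :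
    emultiplicity j.1.asIdeal (idealOf T e) = e j := by
  classical
  rw [idealOf, Finset.emultiplicity_prod j.1.prime, Finset.sum_eq_single j]
  · exact emultiplicity_pow_self_of_prime j.1.prime _
  · intro i _ hij
    rw [emultiplicity_pow j.1.prime, emultiplicity_eq_zero.mpr, mul_zero]
    intro hdvd
    exact hij (Subtype.ext (eq_of_asIdeal_dvd hdvd))
  · simp

theorem idealOf_injective (T : Finset (HeightOneSpectrum (𝓞 K))) :
    Function.Injective (idealOf T) := by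
  intro e e' h
  funext j
  have h1 := emultiplicity_idealOf T e j
  rw [h, emultiplicity_idealOf] at h1
  exact_mod_cast h1.symm

theorem zterm_idealOf (s : ℝ) (T : Finset (HeightOneSpectrum (𝓞 K))) (e : T → ℕ) :
    zterm K s (idealOf T e) = ∏ i : T, ((nrm i.1 : ℝ) ^ (-s)) ^ e i := by
  rw [zterm, idealOf, map_prod, Nat.cast_prod,
    ← Real.finsetProd_rpow _ _ (fun i _ ↦ Nat.cast_nonneg _)]
  refine Finset.prod_congr rfl fun i _ ↦ ?_
  rw [map_pow, Nat.cast_pow, ← Real.rpow_natCast, ← Real.rpow_natCast,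
    ← Real.rpow_mul (Nat.cast_nonneg _), ← Real.rpow_mul (Nat.cast_nonneg _), mul_comm]

/-- **Finite Euler products are bounded by the zeta series.** -/
theorem prod_geom_le_zetaR {s : ℝ} (hs : 1 < s) (T : Finset (HeightOneSpectrum (𝓞 K))) (M : ℕ) :
    ∏ v ∈ T, ∑ k ∈ Finset.range (M + 1), ((nrm v : ℝ) ^ (-s)) ^ k ≤ zetaR K s := by
  classical
  rw [← Finset.prod_coe_sort, Finset.prod_univ_sum]
  simp_rw [← zterm_idealOf]
  rw [← Finset.sum_image (f := zterm K s) (g := idealOf T) ((idealOf_injective T).injOn)]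
  exact (summable_zterm K hs).sum_le_tsum _ (fun _ _ ↦ zterm_nonneg K s _)

theorem eq_idealOf_multiplicity {I : Ideal (𝓞 K)} (hI : I ≠ ⊥)
    (T : Finset (HeightOneSpectrum (𝓞 K))) (hT : ∀ v : HeightOneSpectrum (𝓞 K), v.asIdeal ∣ I → v ∈ T) :
    I = idealOf T (fun i ↦ multiplicity i.1.asIdeal I) := by
  conv_lhs => rw [← Ideal.finprod_heightOneSpectrum_pow_multiplicity hI]
  rw [finprod_eq_prod_of_mulSupport_subset (s := T), idealOf, ← Finset.prod_coe_sort]
  intro v hv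
  rw [Function.mem_mulSupport] at hv
  refine hT v ?_
  by_contra hnd
  exact hv (by rw [multiplicity_eq_zero.mpr hnd, pow_zero, Ideal.one_eq_top])

theorem sum_zterm_le_prod {s : ℝ} (hs : 0 < s) (F : Finset (Ideal (𝓞 K)))
    (T : Finset (HeightOneSpectrum (𝓞 K))) (M : ℕ)
    (hT : ∀ I ∈ F, I ≠ ⊥ → ∀ v : HeightOneSpectrum (𝓞 K), v.asIdeal ∣ I → v ∈ T)
    (hM : ∀ I ∈ F, ∀ v ∈ T, multiplicity v.asIdeal I ≤ M) :
    ∑ I ∈ F, zterm K s I ≤
      ∏ v ∈ T, ∑ k ∈ Finset.range (M + 1), ((nrm v : ℝ) ^ (-s)) ^ k := by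
  classical
  rw [← Finset.prod_coe_sort, Finset.prod_univ_sum]
  simp_rw [← zterm_idealOf]
  rw [← Finset.sum_image (f := zterm K s) (g := idealOf T) ((idealOf_injective T).injOn)]
  have h0 : zterm K s ⊥ = 0 := by
    have : -s ≠ 0 := by linarith
    simp [zterm, Real.zero_rpow this]
  have h1 : ∑ I ∈ F, zterm K s I = ∑ I ∈ F.filter (· ≠ ⊥), zterm K s I := by
    rw [Finset.sum_filter]
    refine Finset.sum_congr rfl fun I _ ↦ ?_
    by_cases hI : I = ⊥
    · simp [hI, h0]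
    · simp [hI]
  rw [h1]
  refine Finset.sum_le_sum_of_subset_of_nonneg ?_ (fun _ _ _ ↦ zterm_nonneg K s _)
  intro I hI
  obtain ⟨hIF, hI0⟩ := Finset.mem_filter.mp hI
  rw [Finset.mem_image]
  refine ⟨fun i ↦ multiplicity i.1.asIdeal I, ?_, ?_⟩
  · rw [Fintype.mem_piFinset]
    intro i
    rw [Finset.mem_range, Nat.lt_succ_iff]
    exact hM I hIF i.1 i.2
  · exact (eq_idealOf_multiplicity hI0 T (hT I hIF hI0)).symm

omit [Field K] [NumberField K] in
theorem exists_nat_bound {α β : Type*} (F : Finset α) (T : Finset β) (f : α → β → ℕ) :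
    ∃ M : ℕ, ∀ a ∈ F, ∀ b ∈ T, f a b ≤ M := by
  refine ⟨∑ a ∈ F, ∑ b ∈ T, f a b, fun a ha b hb ↦ ?_⟩
  exact (Finset.single_le_sum (f := fun b ↦ f a b) (fun _ _ ↦ Nat.zero_le _) hb).trans
    (Finset.single_le_sum (f := fun a ↦ ∑ b ∈ T, f a b) (fun _ _ ↦ Nat.zero_le _) ha)

/-- **Every finite partial sum of the zeta series is bounded by a finite Euler product.** -/
theorem exists_sum_zterm_le_prod {s : ℝ} (hs : 0 < s) (F : Finset (Ideal (𝓞 K))) :
    ∃ (T : Finset (HeightOneSpectrum (𝓞 K))) (M : ℕ), ∑ I ∈ F, zterm K s I ≤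
      ∏ v ∈ T, ∑ k ∈ Finset.range (M + 1), ((nrm v : ℝ) ^ (-s)) ^ k := by
  classical
  have hfin : {v : HeightOneSpectrum (𝓞 K) | ∃ I ∈ F, I ≠ ⊥ ∧ v.asIdeal ∣ I}.Finite := by
    have : {v : HeightOneSpectrum (𝓞 K) | ∃ I ∈ F, I ≠ ⊥ ∧ v.asIdeal ∣ I} ⊆
        ⋃ I ∈ (F.filter (· ≠ ⊥) : Finset (Ideal (𝓞 K))),
          {v : HeightOneSpectrum (𝓞 K) | v.asIdeal ∣ I} := by
      rintro v ⟨I, hIF, hI0, hv⟩
      simp only [Set.mem_iUnion, Set.mem_ofPred_eq, Finset.mem_filter, exists_prop]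
      exact ⟨I, ⟨hIF, hI0⟩, hv⟩
    refine Set.Finite.subset (Set.Finite.biUnion (Finset.finite_toSet _) ?_) this
    intro I hI
    exact Ideal.finite_factors (Finset.mem_filter.mp hI).2
  obtain ⟨M, hM⟩ := exists_nat_bound F hfin.toFinset
    (fun I v ↦ multiplicity v.asIdeal I)
  refine ⟨hfin.toFinset, M, sum_zterm_le_prod hs F _ _ ?_ hM⟩
  intro I hIF hI0 v hv
  rw [Set.Finite.mem_toFinset]
  exact ⟨I, hIF, hI0, hv⟩

/-! ### Elementary real inequalities -/

omit [Field K] [NumberField K] in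
theorem exp_sub_sq_le_one_add {x : ℝ} (hx : 0 ≤ x) : Real.exp (x - x ^ 2) ≤ 1 + x := by
  have h1 : 1 - (x - x ^ 2) ≤ Real.exp (-(x - x ^ 2)) := by
    have := Real.add_one_le_exp (-(x - x ^ 2))
    linarith
  have hpos : 0 < 1 - (x - x ^ 2) := by nlinarith [sq_nonneg (x - 1 / 2)]
  rw [Real.exp_neg] at h1
  have hexp : 0 < Real.exp (x - x ^ 2) := Real.exp_pos _
  have h2 : Real.exp (x - x ^ 2) ≤ (1 - (x - x ^ 2))⁻¹ := by
    rw [le_inv_comm₀ hexp hpos]
    exact h1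
  refine h2.trans ?_
  rw [inv_le_comm₀ hpos (by linarith)]
  rw [inv_le_iff_one_le_mul₀ (by linarith)]
  nlinarith [pow_nonneg hx 3]

omit [Field K] [NumberField K] in
theorem geom_sum_le_exp {x : ℝ} (hx : 0 ≤ x) (hx2 : x ≤ 1 / 2) (n : ℕ) :
    ∑ k ∈ Finset.range n, x ^ k ≤ Real.exp (x + 2 * x ^ 2) := by
  have h1 : ∑ k ∈ Finset.range n, x ^ k ≤ (1 - x)⁻¹ := by
    rw [← tsum_geometric_of_lt_one hx (by linarith)]
    exact (summable_geometric_of_lt_one hx (by linarith)).sum_le_tsum _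
      fun k _ ↦ pow_nonneg hx k
  refine h1.trans ?_
  have hpos : 0 < 1 - x := by linarith
  have h2 : (1 - x)⁻¹ = x / (1 - x) + 1 := by
    field_simp
    ring
  rw [h2]
  refine (Real.add_one_le_exp _).trans (Real.exp_le_exp.mpr ?_)
  rw [div_le_iff₀ hpos]
  nlinarith [mul_nonneg (sq_nonneg x) (by linarith : (0:ℝ) ≤ 1 - 2 * x)]

/-! ### The prime sum -/

/-- The summand `N v ^ (-s)` of the prime sum. -/
noncomputable def pterm (s : ℝ) (v : HeightOneSpectrum (𝓞 K)) : ℝ := (nrm v : ℝ) ^ (-s)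

theorem pterm_eq_zterm (s : ℝ) (v : HeightOneSpectrum (𝓞 K)) :
    pterm s v = zterm K s v.asIdeal := rfl

theorem pterm_nonneg (s : ℝ) (v : HeightOneSpectrum (𝓞 K)) : 0 ≤ pterm s v :=
  zterm_nonneg K s _

theorem pterm_pos (s : ℝ) (v : HeightOneSpectrum (𝓞 K)) : 0 < pterm s v :=
  Real.rpow_pos_of_pos (by exact_mod_cast (by have := two_le_nrm v; omega : 0 < nrm v)) _

theorem pterm_le_half {s : ℝ} (hs : 1 ≤ s) (v : HeightOneSpectrum (𝓞 K)) :
    pterm s v ≤ 1 / 2 := by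
  have h2 : (2 : ℝ) ≤ nrm v := by exact_mod_cast two_le_nrm v
  have h1 : pterm s v ≤ (nrm v : ℝ) ^ (-(1 : ℝ)) :=
    Real.rpow_le_rpow_of_exponent_le (by linarith) (by linarith)
  refine h1.trans ?_
  rw [Real.rpow_neg_one, one_div]
  exact inv_anti₀ (by norm_num) h2

theorem pterm_le_one {s : ℝ} (hs : 0 ≤ s) (v : HeightOneSpectrum (𝓞 K)) :
    pterm s v ≤ 1 := by
  have h2 : (1 : ℝ) ≤ nrm v := by exact_mod_cast (by have := two_le_nrm v; omega : 1 ≤ nrm v)
  exact Real.rpow_le_one_of_one_le_of_nonpos h2 (by linarith)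

theorem pterm_anti {s t : ℝ} (hst : s ≤ t) (v : HeightOneSpectrum (𝓞 K)) :
    pterm t v ≤ pterm s v := by
  have h2 : (1 : ℝ) ≤ nrm v := by exact_mod_cast (by have := two_le_nrm v; omega : 1 ≤ nrm v)
  exact Real.rpow_le_rpow_of_exponent_le h2 (by linarith)

theorem pterm_sq_le {s : ℝ} (hs : 1 ≤ s) (v : HeightOneSpectrum (𝓞 K)) :
    pterm s v ^ 2 ≤ pterm 2 v := by
  have h2 : (1 : ℝ) ≤ nrm v := by exact_mod_cast (by have := two_le_nrm v; omega : 1 ≤ nrm v)
  rw [pterm, pterm, ← Real.rpow_natCast, ← Real.rpow_mul (by linarith)]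
  exact Real.rpow_le_rpow_of_exponent_le h2 (by push_cast; linarith)

variable (K) in
/-- The prime sum `∑_v N v ^ (-s)` converges for `s > 1`. -/
theorem summable_pterm {s : ℝ} (hs : 1 < s) :
    Summable (pterm (K := K) s) :=
  (summable_zterm K hs).comp_injective asIdeal_injective

variable (K) in
/-- The prime sum `∑_v N v ^ (-s)` over all finite places. -/
noncomputable def primeSum (s : ℝ) : ℝ := ∑' v : HeightOneSpectrum (𝓞 K), pterm s v

variable (K) in
theorem primeSum_nonneg (s : ℝ) : 0 ≤ primeSum K s := tsum_nonneg fun v ↦ pterm_nonneg s v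

variable (K) in
theorem one_le_zetaR {s : ℝ} (hs : 1 < s) : 1 ≤ zetaR K s := by
  have h := (summable_zterm K hs).le_tsum (⊤ : Ideal (𝓞 K)) (fun I _ ↦ zterm_nonneg K s I)
  have h1 : zterm K s (⊤ : Ideal (𝓞 K)) = 1 := by simp [zterm]
  rw [h1] at h
  exact h

theorem sum_pterm_sq_le {s : ℝ} (hs : 1 ≤ s) (T : Finset (HeightOneSpectrum (𝓞 K))) :
    ∑ v ∈ T, pterm s v ^ 2 ≤ primeSum K 2 :=
  (Finset.sum_le_sum fun v _ ↦ pterm_sq_le hs v).trans
    ((summable_pterm K (by norm_num : (1 : ℝ) < 2)).sum_le_tsum _ fun v _ ↦ pterm_nonneg 2 v)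

variable (K) in
/-- Lower bound: `∑_v N v ^ (-s) ≤ log ζ_K(s) + ∑_v N v ^ (-2)`. -/
theorem primeSum_le_log_zetaR {s : ℝ} (hs : 1 < s) :
    primeSum K s ≤ Real.log (zetaR K s) + primeSum K 2 := by
  refine (summable_pterm K hs).tsum_le_of_sum_le fun T ↦ ?_
  have hZ : 0 < zetaR K s := lt_of_lt_of_le one_pos (one_le_zetaR K hs)
  have h1 : Real.exp (∑ v ∈ T, (pterm s v - pterm s v ^ 2)) ≤ zetaR K s := by
    rw [Real.exp_sum]
    refine le_trans ?_ (prod_geom_le_zetaR hs T 1)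
    refine Finset.prod_le_prod (fun v _ ↦ (Real.exp_pos _).le) fun v _ ↦ ?_
    refine (exp_sub_sq_le_one_add (pterm_nonneg s v)).trans ?_
    simp [Finset.sum_range_succ, pterm]
  have h2 : ∑ v ∈ T, (pterm s v - pterm s v ^ 2) ≤ Real.log (zetaR K s) := by
    rw [← Real.log_exp (∑ v ∈ T, (pterm s v - pterm s v ^ 2))]
    exact Real.log_le_log (Real.exp_pos _) h1
  rw [Finset.sum_sub_distrib] at h2
  have h3 := sum_pterm_sq_le hs.le T
  linarith

variable (K) in
/-- Upper bound: `log ζ_K(s) ≤ ∑_v N v ^ (-s) + 2 ∑_v N v ^ (-2)`. -/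
theorem log_zetaR_le_primeSum {s : ℝ} (hs : 1 < s) :
    Real.log (zetaR K s) ≤ primeSum K s + 2 * primeSum K 2 := by
  have hZ : 0 < zetaR K s := lt_of_lt_of_le one_pos (one_le_zetaR K hs)
  rw [Real.log_le_iff_le_exp hZ]
  refine (summable_zterm K hs).tsum_le_of_sum_le fun F ↦ ?_
  obtain ⟨T, M, hTM⟩ := exists_sum_zterm_le_prod (by linarith : 0 < s) F
  refine hTM.trans ?_
  have h1 : ∏ v ∈ T, ∑ k ∈ Finset.range (M + 1), ((nrm v : ℝ) ^ (-s)) ^ k ≤
      ∏ v ∈ T, Real.exp (pterm s v + 2 * pterm s v ^ 2) := by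
    refine Finset.prod_le_prod (fun v _ ↦ Finset.sum_nonneg fun k _ ↦
      pow_nonneg (pterm_nonneg s v) k) fun v _ ↦ ?_
    exact geom_sum_le_exp (pterm_nonneg s v) (pterm_le_half hs.le v) _
  refine h1.trans ?_
  rw [← Real.exp_sum, Real.exp_le_exp, Finset.sum_add_distrib, ← Finset.mul_sum]
  have h2 := sum_pterm_sq_le hs.le T
  have h3 : ∑ v ∈ T, pterm s v ≤ primeSum K s :=
    (summable_pterm K hs).sum_le_tsum _ fun v _ ↦ pterm_nonneg s v
  linarith

variable (K) in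
theorem abs_primeSum_sub_log_zetaR_le {s : ℝ} (hs : 1 < s) :
    |primeSum K s - Real.log (zetaR K s)| ≤ 2 * primeSum K 2 := by
  have h1 := primeSum_le_log_zetaR K hs
  have h2 := log_zetaR_le_primeSum K hs
  have h3 := primeSum_nonneg K 2
  rw [abs_le]
  constructor <;> linarith

variable (K) in
/-- `log ζ_K(s) = log (1 / (s - 1)) + O(1)` as `s → 1⁺`. -/
theorem log_zetaR_sub_log_isBigO :
    (fun s : ℝ ↦ Real.log (zetaR K s) - Real.log (1 / (s - 1))) =O[𝓝[>] 1] (fun _ ↦ (1 : ℝ)) := by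
  have h := tendsto_sub_one_mul_zetaR K
  have hlog : Tendsto (fun s : ℝ ↦ Real.log ((s - 1) * zetaR K s)) (𝓝[>] 1)
      (𝓝 (Real.log (dedekindZeta_residue K))) :=
    (Real.continuousAt_log (dedekindZeta_residue_ne_zero K)).tendsto.comp h
  refine (hlog.isBigO_one ℝ).congr' ?_ EventuallyEq.rfl
  filter_upwards [self_mem_nhdsWithin] with s hs
  have hs' : (1 : ℝ) < s := hs
  have hZ : 0 < zetaR K s := lt_of_lt_of_le one_pos (one_le_zetaR K hs')
  rw [Real.log_mul (by linarith) hZ.ne', one_div, Real.log_inv]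
  ring

variable (K) in
/-- **`∑_v N v ^ (-s) = log (1 / (s - 1)) + O(1)` as `s → 1⁺`** (sum over all finite places). -/
theorem primeSum_sub_log_isBigO :
    (fun s : ℝ ↦ primeSum K s - Real.log (1 / (s - 1))) =O[𝓝[>] 1] (fun _ ↦ (1 : ℝ)) := by
  have h1 : (fun s : ℝ ↦ primeSum K s - Real.log (zetaR K s)) =O[𝓝[>] 1] (fun _ ↦ (1 : ℝ)) := by
    refine Asymptotics.IsBigO.of_bound (2 * primeSum K 2) ?_
    filter_upwards [self_mem_nhdsWithin] with s hs
    simpa using abs_primeSum_sub_log_zetaR_le K hs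
  refine (h1.add (log_zetaR_sub_log_isBigO K)).congr_left fun s ↦ ?_
  ring

end Fermat.Agent.S30.Density.ZetaEuler
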