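/-
PROJECT K, slice K-1a (analytic half of the Frobenius density theorem), part 2.
Places of degree `≥ 2` contribute `O(1)`; the degree-one prime sum is `log (1/(s-1)) + O(1)`;
a small API for "logarithmic densities" of sets of finite places.
-/
import Fermat.Agent.S30.Density.ZetaEuler

namespace Fermat.Agent.S30.Density.PrimeSum

open NumberField Ideal Filter Topology IsDedekindDomain Asymptotics
open Fermat.Agent.S30.Density.ZetaEuler

variable {K : Type*} [Field K] [NumberField K]

/-! ### The rational prime below a finite place -/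

instance neZero_asIdeal (v : HeightOneSpectrum (𝓞 K)) : NeZero v.asIdeal := ⟨v.ne_bot⟩

/-- The rational prime below the finite place `v`. -/
noncomputable def pOf (v : HeightOneSpectrum (𝓞 K)) : ℕ := absNorm (under ℤ v.asIdeal)

/-- The residue degree of the finite place `v` over `ℚ`. -/
noncomputable def fOf (v : HeightOneSpectrum (𝓞 K)) : ℕ := v.asIdeal.inertiaDeg ℤ

omit [NumberField K] in
theorem pOf_prime (v : HeightOneSpectrum (𝓞 K)) : (pOf v).Prime :=
  Nat.absNorm_under_prime v.asIdeal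

instance liesOver_pOf (v : HeightOneSpectrum (𝓞 K)) :
    v.asIdeal.LiesOver (span {(pOf v : ℤ)}) :=
  Int.liesOver_span_absNorm v.asIdeal

theorem fOf_pos (v : HeightOneSpectrum (𝓞 K)) : 0 < fOf v :=
  Ideal.inertiaDeg_pos v.asIdeal ℤ

theorem nrm_eq_pow (v : HeightOneSpectrum (𝓞 K)) : nrm v = pOf v ^ fOf v :=
  (Ideal.pow_inertiaDeg (pOf v) v.asIdeal).symm

theorem exists_prime_pow (v : HeightOneSpectrum (𝓞 K)) :
    ∃ p f : ℕ, p.Prime ∧ f ≠ 0 ∧ v.asIdeal.LiesOver (span {(p : ℤ)}) ∧ nrm v = p ^ f :=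
  ⟨pOf v, fOf v, pOf_prime v, (fOf_pos v).ne', liesOver_pOf v, nrm_eq_pow v⟩

theorem nrm_prime_iff (v : HeightOneSpectrum (𝓞 K)) : (nrm v).Prime ↔ fOf v = 1 := by
  rw [nrm_eq_pow]
  constructor
  · intro h
    by_contra h1
    have h2 : 2 ≤ fOf v := by have := fOf_pos v; omega
    exact Nat.Prime.not_prime_pow h2 h
  · intro h
    rw [h, pow_one]
    exact pOf_prime v

theorem nrm_eq_pOf_of_prime {v : HeightOneSpectrum (𝓞 K)} (h : (nrm v).Prime) : nrm v = pOf v := by
  rw [nrm_eq_pow, (nrm_prime_iff v).mp h, pow_one]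

/-! ### At most `[K : ℚ]` places over a rational prime -/

variable (K) in
theorem ncard_primesOver_le (p : ℕ) [Fact p.Prime] :
    ((span {(p : ℤ)}).primesOver (𝓞 K)).ncard ≤ Module.finrank ℚ K := by
  classical
  have h := Ideal.sum_ramification_inertia_eq_finrank (span {(p : ℤ)}) (𝓞 K)
  rw [RingOfIntegers.rank] at h
  rw [← h, Set.ncard_eq_toFinset_card', Set.toFinset_card, Fintype.card, Finset.card_eq_sum_ones]
  refine Finset.sum_le_sum fun q _ ↦ ?_
  have : q.1.IsPrime := q.2.1
  exact Nat.one_le_iff_ne_zero.mpr (mul_ne_zero (Ideal.ramificationIdx_pos q.1 ℤ).ne'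
    (Ideal.inertiaDeg_pos q.1 ℤ).ne')

theorem card_filter_pOf_le (T : Finset (HeightOneSpectrum (𝓞 K))) (p : ℕ) :
    (T.filter (fun v ↦ pOf v = p)).card ≤ Module.finrank ℚ K := by
  classical
  by_cases hp : p.Prime
  · have : Fact p.Prime := ⟨hp⟩
    refine le_trans ?_ (ncard_primesOver_le K p)
    rw [← Finset.card_image_of_injective _ (asIdeal_injective (K := K)),
      ← Set.ncard_coe_finset]
    refine Set.ncard_le_ncard ?_ (IsDedekindDomain.primesOver_finite _ _)
    intro I hI
    rw [Finset.mem_coe, Finset.mem_image] at hI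
    obtain ⟨v, hv, rfl⟩ := hI
    rw [Finset.mem_filter] at hv
    refine ⟨v.isPrime, ?_⟩
    rw [← hv.2]
    exact liesOver_pOf v
  · have : T.filter (fun v ↦ pOf v = p) = ∅ := by
      rw [Finset.filter_eq_empty_iff]
      intro v _ hv
      exact hp (hv ▸ pOf_prime v)
    simp [this]

/-! ### Places of degree `≥ 2` contribute `O(1)` -/

/-- The constant bounding the contribution of the places of degree `≥ 2`. -/
noncomputable def higherConst (K : Type*) [Field K] [NumberField K] : ℝ :=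
  (Module.finrank ℚ K : ℝ) * ∑' m : ℕ, ((m : ℝ) ^ 2)⁻¹

theorem pterm_le_of_not_prime {s : ℝ} (hs : 1 ≤ s) {v : HeightOneSpectrum (𝓞 K)}
    (hv : ¬ (nrm v).Prime) : pterm s v ≤ ((pOf v : ℝ) ^ 2)⁻¹ := by
  have h2 : 2 ≤ fOf v := by
    have h0 := fOf_pos v
    have h1 : fOf v ≠ 1 := fun h ↦ hv ((nrm_prime_iff v).mpr h)
    omega
  have hp1 : 1 ≤ pOf v := (pOf_prime v).one_lt.le
  have hp1' : (1 : ℝ) ≤ pOf v := by exact_mod_cast hp1
  refine (pterm_anti hs v).trans ?_
  rw [pterm, Real.rpow_neg_one, nrm_eq_pow]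
  push_cast
  refine inv_anti₀ (by positivity) ?_
  exact pow_le_pow_right₀ hp1' h2

theorem sum_pterm_higher_le {s : ℝ} (hs : 1 ≤ s) (T : Finset (HeightOneSpectrum (𝓞 K)))
    (hT : ∀ v ∈ T, ¬ (nrm v).Prime) : ∑ v ∈ T, pterm s v ≤ higherConst K := by
  classical
  have hsum : Summable fun m : ℕ ↦ ((m : ℝ) ^ 2)⁻¹ := Real.summable_nat_pow_inv.mpr one_lt_two
  calc ∑ v ∈ T, pterm s v ≤ ∑ v ∈ T, ((pOf v : ℝ) ^ 2)⁻¹ :=
        Finset.sum_le_sum fun v hv ↦ pterm_le_of_not_prime hs (hT v hv)
    _ = ∑ p ∈ T.image pOf, ∑ v ∈ T with pOf v = p, ((pOf v : ℝ) ^ 2)⁻¹ :=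
        (Finset.sum_fiberwise_of_maps_to (fun v hv ↦ Finset.mem_image_of_mem pOf hv) _).symm
    _ ≤ ∑ p ∈ T.image pOf, (Module.finrank ℚ K : ℝ) * ((p : ℝ) ^ 2)⁻¹ := by
        refine Finset.sum_le_sum fun p _ ↦ ?_
        have h1 : ∑ v ∈ T with pOf v = p, ((pOf v : ℝ) ^ 2)⁻¹ =
            ((T.filter (fun v ↦ pOf v = p)).card : ℝ) * ((p : ℝ) ^ 2)⁻¹ := by
          rw [← nsmul_eq_mul, ← Finset.sum_const]
          refine Finset.sum_congr rfl fun v hv ↦ ?_
          rw [(Finset.mem_filter.mp hv).2]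
        rw [h1]
        refine mul_le_mul_of_nonneg_right ?_ (by positivity)
        exact_mod_cast card_filter_pOf_le T p
    _ = (Module.finrank ℚ K : ℝ) * ∑ p ∈ T.image pOf, ((p : ℝ) ^ 2)⁻¹ := by
        rw [Finset.mul_sum]
    _ ≤ higherConst K := by
        refine mul_le_mul_of_nonneg_left ?_ (by positivity)
        exact hsum.sum_le_tsum _ fun m _ ↦ by positivity

/-! ### Sums over sets of finite places -/

variable (K) in
/-- The partial prime sum `∑_{v ∈ A} N v ^ (-s)` over a set `A` of finite places. -/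
noncomputable def setSum (A : Set (HeightOneSpectrum (𝓞 K))) (s : ℝ) : ℝ :=
  ∑' v : A, pterm s v.1

variable (K) in
theorem summable_set (A : Set (HeightOneSpectrum (𝓞 K))) {s : ℝ} (hs : 1 < s) :
    Summable fun v : A ↦ pterm s v.1 :=
  (summable_pterm K hs).subtype A

variable (K) in
theorem setSum_nonneg (A : Set (HeightOneSpectrum (𝓞 K))) (s : ℝ) : 0 ≤ setSum K A s :=
  tsum_nonneg fun v ↦ pterm_nonneg s v.1

variable (K) in
theorem setSum_univ (s : ℝ) : setSum K Set.univ s = primeSum K s := by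
  rw [setSum, primeSum]
  exact tsum_univ (pterm (K := K) s)

variable (K) in
theorem setSum_union {A B : Set (HeightOneSpectrum (𝓞 K))} (h : Disjoint A B) {s : ℝ}
    (hs : 1 < s) : setSum K (A ∪ B) s = setSum K A s + setSum K B s :=
  (summable_set K A hs).tsum_union_disjoint h (summable_set K B hs)

variable (K) in
theorem setSum_add_compl (A : Set (HeightOneSpectrum (𝓞 K))) {s : ℝ} (hs : 1 < s) :
    setSum K A s + setSum K Aᶜ s = primeSum K s :=
  (summable_pterm K hs).tsum_subtype_add_tsum_subtype_compl A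

variable (K) in
theorem setSum_diff {A B : Set (HeightOneSpectrum (𝓞 K))} (h : B ⊆ A) {s : ℝ} (hs : 1 < s) :
    setSum K (A \ B) s = setSum K A s - setSum K B s := by
  have h1 := setSum_union K (Set.disjoint_sdiff_left (s := B) (t := A)) hs
  rw [Set.sdiff_union_of_subset h] at h1
  linarith

variable (K) in
theorem setSum_mono {A B : Set (HeightOneSpectrum (𝓞 K))} (h : A ⊆ B) {s : ℝ} (hs : 1 < s) :
    setSum K A s ≤ setSum K B s := by
  have h1 := setSum_diff K h hs
  have h2 := setSum_nonneg K (B \ A) s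
  linarith

variable (K) in
/-- A bound on all finite partial sums bounds the sum over the set. -/
theorem setSum_le_of_sum_le (A : Set (HeightOneSpectrum (𝓞 K))) {s C : ℝ}
    (h : ∀ T : Finset (HeightOneSpectrum (𝓞 K)), (∀ v ∈ T, v ∈ A) → ∑ v ∈ T, pterm s v ≤ C) :
    setSum K A s ≤ C := by
  classical
  refine Real.tsum_le_of_sum_le (fun v ↦ pterm_nonneg s v.1) fun u ↦ ?_
  have h1 := h (u.map (Function.Embedding.subtype _)) (by
    intro v hv
    rw [Finset.mem_map] at hv
    obtain ⟨w, _, rfl⟩ := hv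
    exact w.2)
  rwa [Finset.sum_map] at h1

variable (K) in
theorem setSum_le_ncard {A : Set (HeightOneSpectrum (𝓞 K))} (hA : A.Finite) {s : ℝ}
    (hs : 0 ≤ s) : setSum K A s ≤ A.ncard := by
  classical
  refine setSum_le_of_sum_le K A fun T hT ↦ ?_
  calc ∑ v ∈ T, pterm s v ≤ ∑ v ∈ T, (1 : ℝ) := Finset.sum_le_sum fun v _ ↦ pterm_le_one hs v
    _ = T.card := by simp
    _ ≤ A.ncard := by
        rw [← Set.ncard_coe_finset T]
        exact_mod_cast Set.ncard_le_ncard (fun v hv ↦ hT v hv) hA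

variable (K) in
/-- The set of finite places of degree one (i.e. of prime absolute norm). -/
def degreeOne : Set (HeightOneSpectrum (𝓞 K)) := {v | (nrm v).Prime}

variable (K) in
theorem setSum_compl_degreeOne_le {s : ℝ} (hs : 1 ≤ s) :
    setSum K (degreeOne K)ᶜ s ≤ higherConst K :=
  setSum_le_of_sum_le K _ fun T hT ↦ sum_pterm_higher_le hs T hT

variable (K) in
/-- The degree-one prime sum. -/
noncomputable def primeSum₁ (s : ℝ) : ℝ := setSum K (degreeOne K) s

variable (K) in
theorem abs_primeSum₁_sub_primeSum_le {s : ℝ} (hs : 1 < s) :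
    |primeSum₁ K s - primeSum K s| ≤ higherConst K := by
  have h1 := setSum_add_compl K (degreeOne K) hs
  have h2 := setSum_compl_degreeOne_le K hs.le
  have h3 := setSum_nonneg K (degreeOne K)ᶜ s
  rw [primeSum₁, abs_le]
  constructor <;> linarith

/-! ### Logarithmic density -/

variable (K) in
/-- `A` has logarithmic density `c`: `∑_{v ∈ A} N v ^ (-s) = c log (1/(s-1)) + O(1)` as `s → 1⁺`. -/
def HasLogDensity (A : Set (HeightOneSpectrum (𝓞 K))) (c : ℝ) : Prop :=
  (fun s : ℝ ↦ setSum K A s - c * Real.log (1 / (s - 1))) =O[𝓝[>] 1] (fun _ ↦ (1 : ℝ))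

variable (K) in
theorem hasLogDensity_univ : HasLogDensity K Set.univ 1 := by
  refine (primeSum_sub_log_isBigO K).congr_left fun s ↦ ?_
  rw [setSum_univ, one_mul]

variable (K) in
/-- **The degree-one places have logarithmic density `1`.** -/
theorem hasLogDensity_degreeOne : HasLogDensity K (degreeOne K) 1 := by
  have h1 : (fun s : ℝ ↦ primeSum₁ K s - primeSum K s) =O[𝓝[>] 1] (fun _ ↦ (1 : ℝ)) := by
    refine IsBigO.of_bound (higherConst K) ?_
    filter_upwards [self_mem_nhdsWithin] with s hs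
    simpa using abs_primeSum₁_sub_primeSum_le K hs
  refine (h1.add (primeSum_sub_log_isBigO K)).congr_left fun s ↦ ?_
  rw [primeSum₁]
  ring

variable (K) in
/-- **`∑_{v of degree one} N v ^ (-s) = log (1 / (s - 1)) + O(1)` as `s → 1⁺`.** -/
theorem primeSum₁_sub_log_isBigO :
    (fun s : ℝ ↦ primeSum₁ K s - Real.log (1 / (s - 1))) =O[𝓝[>] 1] (fun _ ↦ (1 : ℝ)) :=
  (hasLogDensity_degreeOne K).congr_left fun s ↦ by rw [primeSum₁, one_mul]

theorem HasLogDensity.of_bounded {A : Set (HeightOneSpectrum (𝓞 K))} {C : ℝ}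
    (h : ∀ s : ℝ, 1 < s → setSum K A s ≤ C) : HasLogDensity K A 0 := by
  refine IsBigO.of_bound C ?_
  filter_upwards [self_mem_nhdsWithin] with s hs
  have h1 := setSum_nonneg K A s
  have h2 := h s hs
  simp only [zero_mul, sub_zero, norm_one, mul_one, Real.norm_eq_abs, abs_of_nonneg h1]
  exact h2

theorem HasLogDensity.of_finite {A : Set (HeightOneSpectrum (𝓞 K))} (hA : A.Finite) :
    HasLogDensity K A 0 :=
  HasLogDensity.of_bounded fun _ hs ↦ setSum_le_ncard K hA (by linarith)

theorem HasLogDensity.union {A B : Set (HeightOneSpectrum (𝓞 K))} {a b : ℝ}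
    (hA : HasLogDensity K A a) (hB : HasLogDensity K B b) (h : Disjoint A B) :
    HasLogDensity K (A ∪ B) (a + b) := by
  refine (IsBigO.add hA hB).congr' ?_ EventuallyEq.rfl
  filter_upwards [self_mem_nhdsWithin] with s hs
  rw [setSum_union K h hs]
  ring

theorem HasLogDensity.diff {A B : Set (HeightOneSpectrum (𝓞 K))} {a b : ℝ}
    (hA : HasLogDensity K A a) (hB : HasLogDensity K B b) (h : B ⊆ A) :
    HasLogDensity K (A \ B) (a - b) := by
  refine (IsBigO.sub hA hB).congr' ?_ EventuallyEq.rfl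
  filter_upwards [self_mem_nhdsWithin] with s hs
  rw [setSum_diff K h hs]
  ring

theorem HasLogDensity.zero_of_subset {A B : Set (HeightOneSpectrum (𝓞 K))}
    (hB : HasLogDensity K B 0) (h : A ⊆ B) : HasLogDensity K A 0 := by
  unfold HasLogDensity at *
  simp only [zero_mul, sub_zero] at *
  refine IsBigO.trans (IsBigO.of_bound 1 ?_) hB
  filter_upwards [self_mem_nhdsWithin] with s hs
  rw [one_mul, Real.norm_of_nonneg (setSum_nonneg K A s),
    Real.norm_of_nonneg (setSum_nonneg K B s)]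
  exact setSum_mono K h hs

/-- Removing a set of density `0` (e.g. a finite set) does not change the density. -/
theorem HasLogDensity.diff_zero {A B : Set (HeightOneSpectrum (𝓞 K))} {a : ℝ}
    (hA : HasLogDensity K A a) (hB : HasLogDensity K B 0) : HasLogDensity K (A \ B) a := by
  have h1 : HasLogDensity K (A ∩ B) 0 := hB.zero_of_subset Set.inter_subset_right
  have h3 := hA.diff h1 Set.inter_subset_left
  rwa [Set.sdiff_self_inter, sub_zero] at h3

/-- Intersecting with a set whose complement has density `0` does not change the density. -/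
theorem HasLogDensity.inter_of_compl {A B : Set (HeightOneSpectrum (𝓞 K))} {a : ℝ}
    (hA : HasLogDensity K A a) (hB : HasLogDensity K Bᶜ 0) : HasLogDensity K (A ∩ B) a := by
  have h := hA.diff_zero hB
  rwa [Set.sdiff_compl] at h

/-- A subset of `A` whose complement in `A` has density `0` has the density of `A`. -/
theorem HasLogDensity.of_subset_of_diff {A B : Set (HeightOneSpectrum (𝓞 K))} {a : ℝ}
    (hA : HasLogDensity K A a) (h : B ⊆ A) (h0 : HasLogDensity K (A \ B) 0) :
    HasLogDensity K B a := by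
  have h1 := hA.diff_zero h0
  rwa [Set.sdiff_sdiff_right_self, Set.inter_eq_right.mpr h] at h1

theorem tendsto_log_inv_sub_one :
    Tendsto (fun s : ℝ ↦ Real.log (1 / (s - 1))) (𝓝[>] 1) atTop := by
  have h1 : Tendsto (fun s : ℝ ↦ s - 1) (𝓝[>] 1) (𝓝[>] 0) := by
    refine tendsto_nhdsWithin_iff.mpr ⟨?_, ?_⟩
    · have : Tendsto (fun s : ℝ ↦ s - 1) (𝓝 1) (𝓝 (1 - 1)) :=
        (continuous_id.sub continuous_const).tendsto 1
      rw [sub_self] at this
      exact this.mono_left nhdsWithin_le_nhds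
    · filter_upwards [self_mem_nhdsWithin] with s hs
      exact sub_pos.mpr (Set.mem_Ioi.mp hs)
  have h2 := tendsto_inv_nhdsGT_zero.comp h1
  exact (Real.tendsto_log_atTop.comp h2).congr fun s ↦ by simp

/-- The logarithmic density of a set is unique. -/
theorem HasLogDensity.unique {A : Set (HeightOneSpectrum (𝓞 K))} {a b : ℝ}
    (h1 : HasLogDensity K A a) (h2 : HasLogDensity K A b) : a = b := by
  by_contra hab
  have h3 : (fun s : ℝ ↦ (a - b) * Real.log (1 / (s - 1))) =O[𝓝[>] 1] (fun _ ↦ (1 : ℝ)) :=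
    (h2.sub h1).congr_left fun s ↦ by ring
  have h4 : (fun s : ℝ ↦ Real.log (1 / (s - 1))) =O[𝓝[>] 1] (fun _ ↦ (1 : ℝ)) := by
    have h5 := h3.const_mul_left (a - b)⁻¹
    refine h5.congr_left fun s ↦ ?_
    rw [← mul_assoc, inv_mul_cancel₀ (sub_ne_zero.mpr hab), one_mul]
  have h6 := h4.isBoundedUnder_le
  have h7 : Tendsto (norm ∘ fun s : ℝ ↦ Real.log (1 / (s - 1))) (𝓝[>] 1) atTop :=
    tendsto_norm_atTop_atTop.comp tendsto_log_inv_sub_one
  exact Filter.not_isBoundedUnder_of_tendsto_atTop h7 h6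

/-- **A set of finite places of positive logarithmic density is infinite.** -/
theorem HasLogDensity.infinite {A : Set (HeightOneSpectrum (𝓞 K))} {c : ℝ}
    (h : HasLogDensity K A c) (hc : c ≠ 0) : A.Infinite := by
  intro hfin
  exact hc (h.unique (HasLogDensity.of_finite hfin))

/-- Sums over a subtype of a subtype are sums over a set. -/
theorem tsum_subtype_subtype (A : Set (HeightOneSpectrum (𝓞 K))) (p : A → Prop) (s : ℝ) :
    ∑' q : {q : A // p q}, pterm s q.1.1 = setSum K {v | ∃ h : v ∈ A, p ⟨v, h⟩} s := by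
  rw [setSum]
  exact (Equiv.subtypeSubtypeEquivSubtypeExists (· ∈ A) p).tsum_eq
    (fun v : {v : HeightOneSpectrum (𝓞 K) // ∃ h : v ∈ A, p ⟨v, h⟩} ↦ pterm s v.1)

end Fermat.Agent.S30.Density.PrimeSum
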