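/-
PROJECT K (S30), slice K-1b (helper3): degree-one primes in a Galois extension of number fields.

`M ⊆ E` number fields, `E / M` Galois of degree `d`.  Notation: `P(K) := HeightOneSpectrum (𝓞 K)`,
`N v := absNorm v.asIdeal`, `P1(K) := {v // (N v).Prime}` (degree-one primes).

* (S1) `under_prime`     : `v ∈ P1(E)` ⇒ the prime `q` of `M` below `v` has `N q = N v` (so `q ∈ P1(M)`)
                           and `f(v | q) = 1`;
* (S2) `SplitsCompletely`: every prime of `E` over `q` has `e = f = 1`; in the Galois case this holds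
                           as soon as ONE prime over `q` has `e = f = 1`, and then there are exactly
                           `d` primes over `q`, all of norm `N q`;
* (S3) `finite_ramified` : only finitely many primes of `E` are ramified over `M`;
* (S4) `tsum_eq`, `isBigO`: for `s > 1` (summability of `v ↦ N v ^ (-s)` over `P(E)` as hypothesis)
    `∑' v : P1(E), N v ^ (-s) = d * ∑' q : P1(M) ∩ Spl, N q ^ (-s) + ∑ over the ramified v ∈ P1(E)`,
    hence the difference of the first two is `O(1)` as `s → 1⁺`.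
-/
import Mathlib

set_option autoImplicit false

namespace Fermat.Agent.S30.Density.Splitting

open NumberField IsDedekindDomain Ideal

attribute [local instance] FractionRing.liftAlgebra

variable (M E : Type*) [Field M] [NumberField M] [Field E] [NumberField E] [Algebra M E]

/-! ### (S1) the prime below a degree-one prime -/

section Under

variable {E}

/-- the prime of `M` below a prime of `E` -/
noncomputable abbrev below (v : HeightOneSpectrum (𝓞 E)) : HeightOneSpectrum (𝓞 M) :=
  v.under (𝓞 M)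

instance liesOver_below (v : HeightOneSpectrum (𝓞 E)) :
    v.asIdeal.LiesOver (below M v).asIdeal := ⟨rfl⟩

theorem absNorm_eq_pow (v : HeightOneSpectrum (𝓞 E)) :
    absNorm v.asIdeal = absNorm (below M v).asIdeal ^ ((below M v).asIdeal.inertiaDeg' v.asIdeal) :=
  absNorm_eq_pow_inertiaDeg'_of_liesOver v.asIdeal (below M v).asIdeal (below M v).isPrime
    (below M v).ne_bot

theorem one_lt_absNorm {K : Type*} [Field K] [NumberField K] (q : HeightOneSpectrum (𝓞 K)) :
    1 < absNorm q.asIdeal := by
  have h0 : absNorm q.asIdeal ≠ 0 := by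
    rw [Ne, absNorm_eq_zero_iff]
    exact q.ne_bot
  have h1 : absNorm q.asIdeal ≠ 1 := by
    rw [Ne, absNorm_eq_one_iff]
    exact q.isPrime.ne_top
  omega

/-- a power `a ^ f` with `1 < a` is prime only if `f = 1` -/
theorem eq_one_of_pow_prime {a f : ℕ} (ha : 1 < a) (h : (a ^ f).Prime) : f = 1 := by
  rcases Nat.lt_trichotomy f 1 with hf | hf | hf
  · have : f = 0 := by omega
    subst this
    simp at h
    exact absurd h Nat.not_prime_one
  · exact hf
  · exfalso
    have h1 : a ∣ a ^ f := dvd_pow_self a (by omega)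
    rcases (Nat.dvd_prime h).mp h1 with h2 | h2
    · omega
    · have h3 : a ^ 1 < a ^ f := Nat.pow_lt_pow_right ha hf
      rw [pow_one] at h3
      omega

/-- **(S1)**: below a degree-one prime lies a degree-one prime of the same norm, with `f = 1`. -/
theorem inertiaDeg'_eq_one_of_prime (v : HeightOneSpectrum (𝓞 E))
    (hv : (absNorm v.asIdeal).Prime) : (below M v).asIdeal.inertiaDeg' v.asIdeal = 1 := by
  rw [absNorm_eq_pow M v] at hv
  exact eq_one_of_pow_prime (one_lt_absNorm _) hv

theorem absNorm_below_of_prime (v : HeightOneSpectrum (𝓞 E))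
    (hv : (absNorm v.asIdeal).Prime) : absNorm (below M v).asIdeal = absNorm v.asIdeal := by
  rw [absNorm_eq_pow M v, inertiaDeg'_eq_one_of_prime M v hv, pow_one]

end Under

/-! ### (S2) complete splitting in a Galois extension -/

section Galois

variable {M}

/-- `q` splits completely in `E`: every prime of `E` over `q` has `e = f = 1`. -/
def SplitsCompletely (q : Ideal (𝓞 M)) : Prop :=
  ∀ Q : Ideal (𝓞 E), Q.IsPrime → Q.LiesOver q →
    Q.ramificationIdx (𝓞 M) = 1 ∧ Q.inertiaDeg (𝓞 M) = 1

variable {E}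

instance isMaximal_asIdeal {K : Type*} [Field K] [NumberField K] (q : HeightOneSpectrum (𝓞 K)) :
    q.asIdeal.IsMaximal := q.isMaximal

/-- the two inertia degrees agree -/
theorem inertiaDeg_eq_inertiaDeg' (v : HeightOneSpectrum (𝓞 E)) :
    v.asIdeal.inertiaDeg (𝓞 M) = (below M v).asIdeal.inertiaDeg' v.asIdeal :=
  (inertiaDeg'_eq_inertiaDeg (below M v).asIdeal v.asIdeal).symm

theorem inertiaDeg_eq_one_of_prime (v : HeightOneSpectrum (𝓞 E))
    (hv : (absNorm v.asIdeal).Prime) : v.asIdeal.inertiaDeg (𝓞 M) = 1 := by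
  rw [inertiaDeg_eq_inertiaDeg', inertiaDeg'_eq_one_of_prime M v hv]

variable [IsGalois M E]

instance isGaloisGroup_ringOfIntegers : IsGaloisGroup Gal(E/M) (𝓞 M) (𝓞 E) :=
  IsGaloisGroup.of_isFractionRing Gal(E/M) (𝓞 M) (𝓞 E) M E

/-- in a Galois extension one prime with `e = f = 1` over `q` forces complete splitting -/
theorem splitsCompletely_of_exists (q : Ideal (𝓞 M)) (P : Ideal (𝓞 E)) [P.IsPrime] [P.LiesOver q]
    (he : P.ramificationIdx (𝓞 M) = 1) (hf : P.inertiaDeg (𝓞 M) = 1) :
    SplitsCompletely E q := by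
  intro Q hQ hQq
  exact ⟨(ramificationIdx_eq_of_isGaloisGroup q Q P Gal(E/M)).trans he,
    (inertiaDeg_eq_of_isGaloisGroup q Q P Gal(E/M)).trans hf⟩

/-- a completely split prime has exactly `[E : M]` primes above it -/
theorem ncard_primesOver_of_splitsCompletely (q : Ideal (𝓞 M)) [q.IsPrime]
    (h : SplitsCompletely E q) :
    (q.primesOver (𝓞 E)).ncard = Module.finrank M E := by
  obtain ⟨⟨P, hPp, hPq⟩⟩ := (inferInstance : Nonempty (primesOver q (𝓞 E)))
  obtain ⟨he, hf⟩ := h P hPp hPq
  have h1 := ncard_primesOver_mul_ramificationIdxIn_mul_inertiaDegIn q (𝓞 E) Gal(E/M)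
  rw [ramificationIdxIn_eq_ramificationIdx q P Gal(E/M),
    inertiaDegIn_eq_inertiaDeg q P Gal(E/M), he, hf, mul_one, mul_one,
    IsGalois.card_aut_eq_finrank] at h1
  exact h1

end Galois

/-! ### (S3) finitely many ramified primes -/

section Ramified

/-- a prime of `E` ramified over `M` divides the different -/
theorem dvd_differentIdeal_of_ramificationIdx_ne_one (v : HeightOneSpectrum (𝓞 E))
    (hv : v.asIdeal.ramificationIdx (𝓞 M) ≠ 1) :
    v.asIdeal ∣ differentIdeal (𝓞 M) (𝓞 E) := by
  by_contra h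
  have h1 : Algebra.IsUnramifiedAt (𝓞 M) v.asIdeal := not_dvd_differentIdeal_iff.mp h
  exact hv ramificationIdx_eq_one_of_isUnramifiedAt

/-- **(S3)**: only finitely many primes of `E` are ramified over `M`. -/
theorem finite_ramified :
    {v : HeightOneSpectrum (𝓞 E) | v.asIdeal.ramificationIdx (𝓞 M) ≠ 1}.Finite := by
  have h0 : differentIdeal (𝓞 M) (𝓞 E) ≠ 0 := differentIdeal_ne_bot
  exact (Ideal.finite_factors h0).subset fun v hv =>
    dvd_differentIdeal_of_ramificationIdx_ne_one M E v hv

end Ramified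

/-! ### (S4) the prime sums -/

section Sums

/-- the term `N v ^ (-s)` of the prime sums -/
noncomputable def term (K : Type*) [Field K] [NumberField K] (s : ℝ)
    (v : HeightOneSpectrum (𝓞 K)) : ℝ := (absNorm v.asIdeal : ℝ) ^ (-s)

theorem term_nonneg (K : Type*) [Field K] [NumberField K] (s : ℝ)
    (v : HeightOneSpectrum (𝓞 K)) : 0 ≤ term K s v :=
  Real.rpow_nonneg (Nat.cast_nonneg _) _

theorem term_le_one (K : Type*) [Field K] [NumberField K] {s : ℝ} (hs : 0 ≤ s)
    (v : HeightOneSpectrum (𝓞 K)) : term K s v ≤ 1 := by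
  have h1 : (1 : ℝ) ≤ (absNorm v.asIdeal : ℝ) := by
    exact_mod_cast (one_lt_absNorm v).le
  exact Real.rpow_le_one_of_one_le_of_nonpos h1 (by linarith)

/-- degree-one primes -/
abbrev P1 (K : Type*) [Field K] [NumberField K] : Type _ :=
  {v : HeightOneSpectrum (𝓞 K) // (absNorm v.asIdeal).Prime}

/-- degree-one primes of `M` which split completely in `E` -/
abbrev SplP1 : Type _ := {q : P1 M // SplitsCompletely E q.1.asIdeal}

/-- degree-one primes of `E` unramified over `M` -/
abbrev UnrP1 : Type _ := {v : P1 E // v.1.asIdeal.ramificationIdx (𝓞 M) = 1}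

/-- degree-one primes of `E` ramified over `M` -/
abbrev RamP1 : Type _ := {v : P1 E // ¬ v.1.asIdeal.ramificationIdx (𝓞 M) = 1}

theorem finite_ramP1 : Finite (RamP1 M E) := by
  have h := finite_ramified M E
  have : Finite {v : HeightOneSpectrum (𝓞 E) // v.asIdeal.ramificationIdx (𝓞 M) ≠ 1} :=
    h.to_subtype
  refine Finite.of_injective
    (fun v : RamP1 M E =>
      (⟨v.1.1, v.2⟩ : {v : HeightOneSpectrum (𝓞 E) // v.asIdeal.ramificationIdx (𝓞 M) ≠ 1}))
    fun a b hab => ?_
  have h1 : a.1.1 = b.1.1 := by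
    have := congrArg Subtype.val hab
    exact this
  exact Subtype.ext (Subtype.ext h1)

variable [IsGalois M E]

/-- the prime below an unramified degree-one prime is a completely split degree-one prime -/
noncomputable def belowSpl (v : UnrP1 M E) : SplP1 M E :=
  ⟨⟨below M v.1.1, by rw [absNorm_below_of_prime M v.1.1 v.1.2]; exact v.1.2⟩,
    splitsCompletely_of_exists (below M v.1.1).asIdeal v.1.1.asIdeal v.2
      (inertiaDeg_eq_one_of_prime v.1.1 v.1.2)⟩

theorem term_belowSpl (s : ℝ) (v : UnrP1 M E) :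
    term M s (belowSpl M E v).1.1 = term E s v.1.1 := by
  unfold term
  rw [show (belowSpl M E v).1.1 = below M v.1.1 from rfl, absNorm_below_of_prime M v.1.1 v.1.2]

omit [IsGalois M E] in
/-- a prime of `E` over a completely split degree-one prime is an unramified degree-one prime -/
theorem absNorm_of_liesOver_spl (q : SplP1 M E) (Q : Ideal (𝓞 E)) [hQ : Q.IsPrime]
    [hQq : Q.LiesOver q.1.1.asIdeal] : absNorm Q = absNorm q.1.1.asIdeal := by
  have hQmax : Q.IsMaximal :=
    Ideal.IsMaximal.of_liesOver_isMaximal Q q.1.1.asIdeal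
  have h1 := absNorm_eq_pow_inertiaDeg'_of_liesOver Q q.1.1.asIdeal q.1.1.isPrime q.1.1.ne_bot
  rw [inertiaDeg'_eq_inertiaDeg q.1.1.asIdeal Q, (q.2 Q hQ hQq).2, pow_one] at h1
  exact h1

theorem belowSpl_asIdeal (v : UnrP1 M E) :
    (belowSpl M E v).1.1.asIdeal = v.1.1.asIdeal.under (𝓞 M) := rfl

/-- the fibre of `belowSpl` over `q` is the set of primes of `E` over `q` -/
noncomputable def fibreEquiv (q : SplP1 M E) :
    {v : UnrP1 M E // belowSpl M E v = q} ≃ q.1.1.asIdeal.primesOver (𝓞 E) where
  toFun v := ⟨v.1.1.1.asIdeal, v.1.1.1.isPrime,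
    ⟨(congrArg (fun q : SplP1 M E => q.1.1.asIdeal) v.2).symm⟩⟩
  invFun Q :=
    haveI := Q.2.1
    haveI := Q.2.2
    ⟨⟨⟨⟨Q.1, Q.2.1, ne_bot_of_liesOver_of_ne_bot q.1.1.ne_bot Q.1⟩,
        by
          show (absNorm Q.1).Prime
          rw [absNorm_of_liesOver_spl M E q Q.1]; exact q.1.2⟩,
      (q.2 Q.1 Q.2.1 Q.2.2).1⟩,
      Subtype.ext (Subtype.ext (HeightOneSpectrum.ext (Q.2.2.over).symm))⟩
  left_inv v := Subtype.ext (Subtype.ext (Subtype.ext (HeightOneSpectrum.ext rfl)))
  right_inv Q := Subtype.ext rfl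

theorem card_fibre (q : SplP1 M E) :
    Nat.card {v : UnrP1 M E // belowSpl M E v = q} = Module.finrank M E := by
  have := q.1.1.isPrime
  rw [Nat.card_congr (fibreEquiv M E q), ← ncard_primesOver_of_splitsCompletely q.1.1.asIdeal q.2]
  exact _root_.Nat.card_coe_set_eq _

section Fixed

variable {M E}
variable {s : ℝ}

theorem summable_P1 (hsum : Summable (term E s)) : Summable fun v : P1 E => term E s v.1 :=
  hsum.subtype _

omit [NumberField M] [IsGalois M E] in
theorem summable_unr (hsum : Summable (term E s)) :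
    Summable fun v : UnrP1 M E => term E s v.1.1 :=
  hsum.comp_injective (i := fun v : UnrP1 M E => v.1.1)
    fun _ _ h => Subtype.ext (Subtype.ext h)

/-- the sum over a fibre of `belowSpl` -/
theorem tsum_fibre (q : SplP1 M E) :
    ∑' c : {v : UnrP1 M E // belowSpl M E v = q}, term E s c.1.1.1
      = (Module.finrank M E : ℝ) * term M s q.1.1 := by
  have h1 : ∀ c : {v : UnrP1 M E // belowSpl M E v = q}, term E s c.1.1.1 = term M s q.1.1 := by
    intro c
    rw [← term_belowSpl M E s c.1, c.2]
  rw [tsum_congr h1, tsum_const, card_fibre, nsmul_eq_mul]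

/-- **the unramified degree-one primes of `E`**: their sum is `d` times the sum over the completely
split degree-one primes of `M`. -/
theorem tsum_unr (hsum : Summable (term E s)) :
    ∑' v : UnrP1 M E, term E s v.1.1
      = (Module.finrank M E : ℝ) * ∑' q : SplP1 M E, term M s q.1.1 := by
  have hU := summable_unr (M := M) hsum
  rw [← (Equiv.sigmaFiberEquiv (belowSpl M E)).tsum_eq (fun v : UnrP1 M E => term E s v.1.1)]
  have hS : Summable fun x : (Σ q : SplP1 M E, {v : UnrP1 M E // belowSpl M E v = q}) =>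
      term E s ((Equiv.sigmaFiberEquiv (belowSpl M E)) x).1.1 :=
    (Equiv.sigmaFiberEquiv (belowSpl M E)).summable_iff.mpr hU
  rw [hS.tsum_sigma' (fun q => ?_)]
  · rw [← tsum_mul_left]
    exact tsum_congr fun q => tsum_fibre q
  · have : Finite {v : UnrP1 M E // belowSpl M E v = q} := by
      apply Nat.finite_of_card_ne_zero
      rw [card_fibre]
      exact Module.finrank_pos.ne'
    exact Summable.of_finite

/-- **(S4), exact form.** -/
theorem tsum_P1_eq (hsum : Summable (term E s)) :
    ∑' v : P1 E, term E s v.1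
      = (Module.finrank M E : ℝ) * ∑' q : SplP1 M E, term M s q.1.1
        + ∑' v : RamP1 M E, term E s v.1.1 := by
  rw [← tsum_unr hsum]
  exact ((summable_P1 hsum).tsum_subtype_add_tsum_subtype_compl
    {v : P1 E | v.1.asIdeal.ramificationIdx (𝓞 M) = 1}).symm

omit [NumberField M] [IsGalois M E] in
theorem tsum_ram_nonneg : 0 ≤ ∑' v : RamP1 M E, term E s v.1.1 :=
  tsum_nonneg fun v => term_nonneg E s v.1.1

omit [IsGalois M E] in
theorem tsum_ram_le (hs : 0 ≤ s) :
    ∑' v : RamP1 M E, term E s v.1.1 ≤ (Nat.card (RamP1 M E) : ℝ) := by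
  have := finite_ramP1 M E
  have := Fintype.ofFinite (RamP1 M E)
  rw [tsum_fintype, Nat.card_eq_fintype_card, ← Finset.card_univ, ← nsmul_one, ← Finset.sum_const]
  exact Finset.sum_le_sum fun v _ => term_le_one E hs v.1.1

end Fixed

open Filter Topology Asymptotics in
/-- **(S4)**: `∑_{P1(E)} N v ^ (-s) - [E : M] ∑_{P1(M) ∩ Spl} N q ^ (-s) = O(1)` as `s → 1⁺`. -/
theorem isBigO (hsum : ∀ s : ℝ, 1 < s → Summable (term E s)) :
    (fun s : ℝ => (∑' v : P1 E, term E s v.1)
        - (Module.finrank M E : ℝ) * ∑' q : SplP1 M E, term M s q.1.1)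
      =O[𝓝[>] (1 : ℝ)] (fun _ => (1 : ℝ)) := by
  refine IsBigO.of_bound (Nat.card (RamP1 M E) : ℝ) ?_
  filter_upwards [self_mem_nhdsWithin] with s hs
  have hs1 : (1 : ℝ) < s := hs
  rw [tsum_P1_eq (M := M) (hsum s hs1), add_sub_cancel_left, norm_one, mul_one,
    Real.norm_eq_abs, abs_of_nonneg (tsum_ram_nonneg (M := M) (E := E))]
  exact tsum_ram_le (M := M) (E := E) (by linarith)

end Sums

end Fermat.Agent.S30.Density.Splitting
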