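/-
PROJECT K, slice K-1b (continued): adapters between `Density/Splitting.lean` (the exact splitting
identity (S4)) and `Density/ZetaEuler.lean` (`pterm`, `summable_pterm`).

* `isBigO_pterm` : (S4) with the summability hypothesis discharged, in `pterm` shape.
* `splSet M E` : the set of degree-one places of `M` that split completely in `E`, as a
  `Set (HeightOneSpectrum (𝓞 M))`; `tsum_splSet` rewrites the `SplP1` sum as a sum over this set.
* `logDensity_splP1` / `logDensity_splSet` : if the degree-one places of `E` have logarithmic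
  density `1` (slice (a2) for `E`), the completely split degree-one places of `M` have logarithmic
  density `1 / [E : M]`.
-/
import Fermat.Agent.S30.Density.Splitting
import Fermat.Agent.S30.Density.ZetaEuler

namespace Fermat.Agent.S30.Density.SplittingLog

open NumberField Ideal IsDedekindDomain Filter Topology Asymptotics
open Fermat.Agent.S30.Density

variable (M E : Type*) [Field M] [NumberField M] [Field E] [NumberField E] [Algebra M E]

theorem term_eq_pterm (K : Type*) [Field K] [NumberField K] (s : ℝ)
    (v : HeightOneSpectrum (𝓞 K)) : Splitting.term K s v = ZetaEuler.pterm s v := rfl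

/-- The set of degree-one places of `M` which split completely in `E`. -/
def splSet : Set (HeightOneSpectrum (𝓞 M)) :=
  {q | (absNorm q.asIdeal).Prime ∧ Splitting.SplitsCompletely E q.asIdeal}

/-- The set of degree-one places of a number field. -/
def degOneSet (K : Type*) [Field K] [NumberField K] : Set (HeightOneSpectrum (𝓞 K)) :=
  {q | (absNorm q.asIdeal).Prime}

/-- `SplP1 M E` is the subtype of `splSet M E`. -/
def splEquiv : Splitting.SplP1 M E ≃ splSet M E where
  toFun q := ⟨q.1.1, q.1.2, q.2⟩
  invFun q := ⟨⟨q.1, q.2.1⟩, q.2.2⟩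
  left_inv _ := rfl
  right_inv _ := rfl

/-- `P1 K` is the subtype of `degOneSet K`. -/
def degOneEquiv (K : Type*) [Field K] [NumberField K] : Splitting.P1 K ≃ degOneSet K :=
  Equiv.refl _

omit [NumberField E] in
theorem tsum_splSet (f : HeightOneSpectrum (𝓞 M) → ℝ) :
    ∑' q : splSet M E, f q.1 = ∑' q : Splitting.SplP1 M E, f q.1.1 :=
  ((splEquiv M E).tsum_eq fun q : splSet M E => f q.1).symm

theorem tsum_degOneSet (K : Type*) [Field K] [NumberField K]
    (f : HeightOneSpectrum (𝓞 K) → ℝ) :
    ∑' q : degOneSet K, f q.1 = ∑' q : Splitting.P1 K, f q.1 := rfl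

variable [IsGalois M E]

/-- **(S4)** in `pterm` shape, summability discharged by `ZetaEuler.summable_pterm`. -/
theorem isBigO_pterm :
    (fun s : ℝ => (∑' v : Splitting.P1 E, ZetaEuler.pterm s v.1)
        - (Module.finrank M E : ℝ) * ∑' q : Splitting.SplP1 M E, ZetaEuler.pterm s q.1.1)
      =O[𝓝[>] (1 : ℝ)] (fun _ => (1 : ℝ)) :=
  Splitting.isBigO M E fun _ hs => ZetaEuler.summable_pterm E hs

/-- If the degree-one places of `E` have logarithmic density one, then the completely split
degree-one places of `M` have logarithmic density `1 / [E : M]`. -/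
theorem logDensity_splP1
    (h2 : (fun s : ℝ => (∑' v : Splitting.P1 E, ZetaEuler.pterm s v.1) - Real.log (1 / (s - 1)))
      =O[𝓝[>] (1 : ℝ)] (fun _ => (1 : ℝ))) :
    (fun s : ℝ => (∑' q : Splitting.SplP1 M E, ZetaEuler.pterm s q.1.1)
        - (1 / (Module.finrank M E : ℝ)) * Real.log (1 / (s - 1)))
      =O[𝓝[>] (1 : ℝ)] (fun _ => (1 : ℝ)) := by
  have hn : (Module.finrank M E : ℝ) ≠ 0 := by
    exact_mod_cast (Module.finrank_pos (R := M) (M := E)).ne'
  have h := (h2.sub (isBigO_pterm M E)).const_mul_left (1 / (Module.finrank M E : ℝ))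
  refine h.congr_left fun s => ?_
  field_simp
  ring

/-- Set-indexed version of `logDensity_splP1`. -/
theorem logDensity_splSet
    (h2 : (fun s : ℝ => (∑' v : degOneSet E, ZetaEuler.pterm s v.1) - Real.log (1 / (s - 1)))
      =O[𝓝[>] (1 : ℝ)] (fun _ => (1 : ℝ))) :
    (fun s : ℝ => (∑' q : splSet M E, ZetaEuler.pterm s q.1)
        - (1 / (Module.finrank M E : ℝ)) * Real.log (1 / (s - 1)))
      =O[𝓝[>] (1 : ℝ)] (fun _ => (1 : ℝ)) := by
  have := logDensity_splP1 M E h2
  refine this.congr_left fun s => ?_
  rw [tsum_splSet M E (ZetaEuler.pterm s)]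

end Fermat.Agent.S30.Density.SplittingLog
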