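import Mathlib
import Fermat.Agent.S30.Density.FrobSetup
import Fermat.Agent.S30.Density.PrimeSum
import Fermat.Agent.S30.Density.SplittingLog
import Fermat.Agent.S30.Density.CyclicCore
import Fermat.Agent.S30.Density.CyclicSplit
import Fermat.Agent.S30.Density.CyclicExtra

/-!
# K-1d: Frobenius' density theorem (existence form), number field statement (F1)

`L / ℚ` a finite Galois extension of number fields, `σ ∈ Gal(L/ℚ)`, `S` a finite set of primes.

* `exists_good_inert` : relative cyclic case: if `Gal(L/M) = ⟨τ⟩` there is a place `q` of `M` of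
  degree one, with norm outside a given finite set, having exactly one prime of `L` above it
  (`CyclicCore.infinite_of_density` fed with `SplittingLog.logDensity_splSet`,
  `CyclicSplit.splits_iff_dvd` and the `HasLogDensity` calculus of `PrimeSum`).
* `exists_frob` : **(F1), Mathlib form**: there are a prime `l ∉ S`, a prime `Q` of `𝓞 L` over `l`
  with `Algebra.IsUnramifiedAt ℤ Q`, and `k` prime to `orderOf σ` with
  `IsArithFrobAt ℤ (σ ^ k) Q`.
* `exists_frob_elementwise` : **(F1), element-level form** (no action on `𝓞 L` in the statement;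
  Frobenius congruence and triviality of the inertia group spelled out in `L`).
-/

set_option autoImplicit false
set_option linter.unusedSectionVars false
set_option linter.style.haveILetI false

noncomputable section

namespace Fermat.Agent.S30.Density.Frobenius

open NumberField IsDedekindDomain Ideal Filter Topology Asymptotics IntermediateField
open Fermat.Agent.S30.Density
open ZetaEuler PrimeSum

/-! ### Relative cyclic part -/

section Relative

variable {M L : Type*} [Field M] [Field L] [NumberField M] [NumberField L] [Algebra M L]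
  [IsGalois M L] (τ : L ≃ₐ[M] L) (hτ : Subgroup.zpowers τ = ⊤)

/-- The number of primes of `L` above the finite place `q` of `M`. -/
def gOf (L : Type*) [Field L] [NumberField L] [Algebra M L] (q : HeightOneSpectrum (𝓞 M)) : ℕ :=
  (q.asIdeal.primesOver (𝓞 L)).ncard

include hτ in
theorem gOf_dvd (q : HeightOneSpectrum (𝓞 M)) : gOf L q ∣ orderOf τ := by
  haveI : IsGaloisGroup Gal(L/M) (𝓞 M) (𝓞 L) :=
    IsGaloisGroup.of_isFractionRing Gal(L/M) (𝓞 M) (𝓞 L) M L
  have h1 := ncard_primesOver_mul_ramificationIdxIn_mul_inertiaDegIn q.asIdeal (𝓞 L) Gal(L/M)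
  rw [FrobSetup.orderOf_eq_finrank τ hτ, ← IsGalois.card_aut_eq_finrank, ← h1]
  exact dvd_mul_right _ _

/-- The degree-one places of `M` whose norm avoids `Bad`. -/
def good (M : Type*) [Field M] [NumberField M] (Bad : Finset ℕ) :
    Set (HeightOneSpectrum (𝓞 M)) :=
  {q | (nrm q).Prime ∧ nrm q ∉ Bad}

theorem finite_nrm_mem (M : Type*) [Field M] [NumberField M] (Bad : Finset ℕ) :
    {q : HeightOneSpectrum (𝓞 M) | nrm q ∈ Bad}.Finite := by
  have h1 : {I : Ideal (𝓞 M) | absNorm I ∈ Bad}.Finite := by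
    have : {I : Ideal (𝓞 M) | absNorm I ∈ Bad} = ⋃ n ∈ Bad, {I : Ideal (𝓞 M) | absNorm I = n} := by
      ext I
      simp
    rw [this]
    exact Set.Finite.biUnion Bad.finite_toSet fun n _ => Ideal.finite_setOfPred_absNorm_eq n
  refine Set.Finite.of_finite_image (f := fun q : HeightOneSpectrum (𝓞 M) => q.asIdeal)
    (h1.subset ?_) (fun q _ q' _ h => HeightOneSpectrum.ext h)
  rintro _ ⟨q, hq, rfl⟩
  exact hq

/-- `HasLogDensity` for the degree-one places of a number field, in the shape used by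
`SplittingLog.logDensity_splSet`. -/
theorem h2_degOne (E : Type*) [Field E] [NumberField E] :
    (fun s : ℝ => (∑' v : SplittingLog.degOneSet E, ZetaEuler.pterm s v.1) - Real.log (1 / (s - 1)))
      =O[𝓝[>] (1 : ℝ)] (fun _ => (1 : ℝ)) :=
  PrimeSum.primeSum₁_sub_log_isBigO (K := E)

include hτ in
/-- The good degree-one places `q` of `M` with `d ∣ g(q)` have logarithmic density `1 / d`. -/
theorem hasLogDensity_good_dvd (Bad : Finset ℕ) {d : ℕ} (hd : d ∣ orderOf τ) :
    HasLogDensity M {q | q ∈ good M Bad ∧ d ∣ gOf L q} (1 / (d : ℝ)) := by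
  haveI := FrobSetup.isGalois_Ed τ hτ d
  have h1 : HasLogDensity M (SplittingLog.splSet M (FrobSetup.Ed τ d)) (1 / (d : ℝ)) := by
    have := SplittingLog.logDensity_splSet M (FrobSetup.Ed τ d) (h2_degOne _)
    rw [FrobSetup.finrank_Ed τ hτ d hd] at this
    exact this
  have h2 : HasLogDensity M {q : HeightOneSpectrum (𝓞 M) | nrm q ∈ Bad} 0 :=
    HasLogDensity.of_finite (finite_nrm_mem M Bad)
  have h3 := h1.diff_zero h2
  have hmem : ∀ τ' : L ≃ₐ[M] L, τ' ∈ Subgroup.zpowers τ := fun τ' => hτ ▸ Subgroup.mem_top τ'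
  convert h3 using 1
  ext q
  have hq := CyclicSplit.splits_iff_dvd τ hmem hd q.asIdeal q.ne_bot
  simp only [Set.mem_ofPred_eq, good, Set.mem_sdiff, SplittingLog.splSet]
  constructor
  · rintro ⟨⟨h1, h2⟩, h3⟩
    exact ⟨⟨h1, hq.mpr h3⟩, h2⟩
  · rintro ⟨⟨h1, h3⟩, h2⟩
    exact ⟨⟨h1, h2⟩, hq.mp h3⟩

include hτ in
/-- There is a good degree-one place of `M` with exactly one prime of `L` above it. -/
theorem exists_good_inert (Bad : Finset ℕ) :
    ∃ q : HeightOneSpectrum (𝓞 M), q ∈ good M Bad ∧ gOf L q = 1 := by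
  have hf : 0 < orderOf τ := by
    rw [FrobSetup.orderOf_eq_finrank τ hτ]
    exact Module.finrank_pos
  have key := CyclicCore.infinite_of_density (P := good M Bad)
    (w := fun q s => pterm s q.1)
    (fun q s _ => pterm_nonneg s q.1)
    (fun s hs => PrimeSum.summable_set M (good M Bad) hs)
    (fun q => ⟨1, fun s hs => pterm_le_one (by linarith) q.1⟩)
    (orderOf τ) hf (fun q => gOf L q.1) (fun q => gOf_dvd τ hτ q.1)
    (by
      intro d hd
      have hd' : d ∣ orderOf τ := Nat.dvd_of_mem_divisors hd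
      have h := hasLogDensity_good_dvd τ hτ Bad hd'
      unfold HasLogDensity at h
      refine h.congr_left fun s => ?_
      rw [PrimeSum.tsum_subtype_subtype (good M Bad) (fun q => d ∣ gOf L q.1) s]
      congr 2
      ext q
      simp only [Set.mem_ofPred_eq]
      exact ⟨fun ⟨h1, h2⟩ => ⟨h1, h2⟩, fun ⟨h1, h2⟩ => ⟨h1, h2⟩⟩)
  obtain ⟨q, hq⟩ := key.nonempty
  exact ⟨q.1, q.2, hq⟩

end Relative

/-! ### Absolute part -/

section Absolute

variable {L : Type*} [Field L] [NumberField L] [IsGalois ℚ L] (σ : L ≃ₐ[ℚ] L)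

theorem sigmaM_pow_smul (k : ℕ) (x : 𝓞 L) : (FrobSetup.sigmaM σ ^ k) • x = (σ ^ k) • x := by
  apply RingOfIntegers.ext
  exact FrobSetup.sigmaM_pow_apply σ k _

/-- `IsArithFrobAt ℤ g Q` spelled out for a prime `Q` over the rational prime `l`. -/
theorem isArithFrobAt_iff (Q : Ideal (𝓞 L)) (l : ℕ) [Q.LiesOver (span {(l : ℤ)})]
    (g : L ≃ₐ[ℚ] L) : IsArithFrobAt ℤ g Q ↔ ∀ x : 𝓞 L, g • x - x ^ l ∈ Q := by
  have h1 : Q.under ℤ = span {(l : ℤ)} :=
    (Ideal.LiesOver.over (P := Q) (p := span {(l : ℤ)})).symm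
  unfold IsArithFrobAt AlgHom.IsArithFrobAt
  rw [h1, Int.card_ideal_quot]
  rfl

/-- The finite set of rational primes to avoid. -/
def badSet (L : Type*) [Field L] [NumberField L] (S : Finset ℕ) : Finset ℕ :=
  S ∪ (NumberField.discr L).natAbs.primeFactors

theorem not_dvd_discr_of_not_mem_badSet {S : Finset ℕ} {l : ℕ} (hl : l.Prime)
    (h : l ∉ badSet L S) : ¬ (l : ℤ) ∣ NumberField.discr L := by
  intro hd
  apply h
  refine Finset.mem_union_right _ ?_
  rw [Nat.mem_primeFactors]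
  refine ⟨hl, Int.natCast_dvd.mp hd, ?_⟩
  simpa using NumberField.discr_ne_zero L

/-- **(F1), Mathlib form**: for every `σ ∈ Gal(L/ℚ)` and every finite set `S` of primes there are
a prime `l ∉ S`, a prime `Q` of `𝓞 L` over `l`, unramified over `ℤ`, and `k` prime to the order of
`σ` such that `σ ^ k` is the Frobenius element at `Q`. -/
theorem exists_frob (S : Finset ℕ) :
    ∃ (l k : ℕ) (Q : Ideal (𝓞 L)) (_ : Q.IsPrime), l.Prime ∧ l ∉ S ∧ k.Coprime (orderOf σ) ∧
      Q.IsMaximal ∧ Q.LiesOver (span {(l : ℤ)}) ∧ Algebra.IsUnramifiedAt ℤ Q ∧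
      IsArithFrobAt ℤ (σ ^ k) Q := by
  obtain ⟨q, ⟨hq1, hq2⟩, hq3⟩ :=
    exists_good_inert (FrobSetup.sigmaM σ) (FrobSetup.zpowers_sigmaM σ) (L := L) (badSet L S)
  set l := nrm q with hl
  -- a prime of `L` over `q`
  obtain ⟨⟨Q, hQ1, hQ2⟩⟩ := (inferInstance : Nonempty (q.asIdeal.primesOver (𝓞 L)))
  haveI := hQ1
  haveI := hQ2
  have hQne : Q ≠ ⊥ := Ideal.ne_bot_of_liesOver_of_ne_bot q.ne_bot Q
  haveI hQmax : Q.IsMaximal := Ring.DimensionLEOne.maximalOfPrime hQne hQ1
  -- `q` lies over `l`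
  have hql : q.asIdeal.LiesOver (span {(l : ℤ)}) := by
    have := PrimeSum.liesOver_pOf q
    rwa [← PrimeSum.nrm_eq_pOf_of_prime hq1] at this
  haveI : Q.LiesOver (span {(l : ℤ)}) := Ideal.LiesOver.trans Q q.asIdeal _
  have hlS : l ∉ S := fun h => hq2 (Finset.mem_union_left _ h)
  have hdisc := not_dvd_discr_of_not_mem_badSet (L := L) hq1 hq2
  have hlQ : ((l : ℤ) : 𝓞 L) ∈ Q := by
    have h1 : Q.under ℤ = span {(l : ℤ)} :=
      (Ideal.LiesOver.over (P := Q) (p := span {(l : ℤ)})).symm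
    have h2 : (l : ℤ) ∈ Q.under ℤ := by rw [h1]; exact Ideal.mem_span_singleton_self _
    simpa [Ideal.under_def] using h2
  have hunr : Algebra.IsUnramifiedAt ℤ Q :=
    (NumberField.not_dvd_discr_iff_forall_mem L (𝓞 L)
      (Nat.prime_iff_prime_int.mp hq1)).mp hdisc Q hQ1 hlQ
  have hunrM : Algebra.IsUnramifiedAt (𝓞 (FrobSetup.fixM σ)) Q :=
    Algebra.FormallyUnramified.of_restrictScalars ℤ (𝓞 (FrobSetup.fixM σ)) (Localization.AtPrime Q)
  haveI : IsGaloisGroup Gal(L/FrobSetup.fixM σ) (𝓞 (FrobSetup.fixM σ)) (𝓞 L) :=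
    IsGaloisGroup.of_isFractionRing Gal(L/FrobSetup.fixM σ) (𝓞 (FrobSetup.fixM σ)) (𝓞 L)
      (FrobSetup.fixM σ) L
  have he : q.asIdeal.ramificationIdxIn (𝓞 L) = 1 := by
    rw [Ideal.ramificationIdxIn_eq_ramificationIdx q.asIdeal Q Gal(L/FrobSetup.fixM σ)]
    exact Ideal.ramificationIdx_eq_one Q (𝓞 (FrobSetup.fixM σ))
  haveI : q.asIdeal.IsMaximal := q.isMaximal
  obtain ⟨k, hk1, hk2⟩ :=
    CyclicExtra.exists_isArithFrobAt_int σ q.asIdeal q.ne_bot Q l rfl he hq3
  exact ⟨l, k, Q, hQ1, hq1, hlS, hk1, hQmax, inferInstance, hunr, hk2⟩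

/-- **(F1), element-level form** (the shape consumed by `Density/Bridge.lean`): no Galois action
on `𝓞 L` appears in the statement. -/
theorem exists_frob_elementwise (S : Finset ℕ) :
    ∃ (l k : ℕ) (Q : Ideal (𝓞 L)), l.Prime ∧ l ∉ S ∧ Nat.Coprime k (orderOf σ) ∧ Q.IsPrime ∧
      ((l : 𝓞 L) ∈ Q) ∧
      (∀ x : 𝓞 L, ∃ y ∈ Q, ((σ ^ k) (x : L) : L) - (x : L) ^ l = (y : L)) ∧
      (∀ ρ : L ≃ₐ[ℚ] L, (∀ x : 𝓞 L, ∃ y ∈ Q, ρ (x : L) - (x : L) = (y : L)) → ρ = 1) := by
  obtain ⟨l, k, Q, hQ, hl, hlS, hk, hQmax, hQl, hunr, hF⟩ := exists_frob σ S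
  haveI := hQ
  haveI := hQl
  haveI : Fact l.Prime := ⟨hl⟩
  have h1 : Q.under ℤ = span {(l : ℤ)} :=
    (Ideal.LiesOver.over (P := Q) (p := span {(l : ℤ)})).symm
  have hlQ : (l : 𝓞 L) ∈ Q := by
    have h2 : (l : ℤ) ∈ Q.under ℤ := by rw [h1]; exact Ideal.mem_span_singleton_self _
    simpa [Ideal.under_def] using h2
  refine ⟨l, k, Q, hl, hlS, hk, hQ, hlQ, ?_, ?_⟩
  · intro x
    have h3 := (isArithFrobAt_iff Q l (σ ^ k)).mp hF x
    exact ⟨_, h3, rfl⟩
  · intro ρ hρ
    have he : (span {(l : ℤ)}).ramificationIdxIn (𝓞 L) = 1 := by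
      rw [Ideal.ramificationIdxIn_eq_ramificationIdx (span {(l : ℤ)}) Q Gal(L/ℚ)]
      exact Ideal.ramificationIdx_eq_one Q ℤ
    haveI : (span {(l : ℤ)}).IsPrime := (Int.ideal_span_isMaximal_of_prime l).isPrime
    refine CyclicFrob.eq_one_of_forall_sub_mem (G := Gal(L/ℚ)) (span {(l : ℤ)}) Q he ?_
    intro x
    obtain ⟨y, hy, hxy⟩ := hρ x
    have : ρ • x - x = y := RingOfIntegers.ext hxy
    rw [this]
    exact hy

end Absolute

end Fermat.Agent.S30.Density.Frobenius
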