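import Mathlib
import Fermat.Prelude.Def_EllipticCurve_FrobeniusTrace
import Fermat.Prelude.Def_FLTPrelim_Ramification
import Fermat.Agent.Lib.FrobeniusExists
import Fermat.Agent.S30.Density.Frobenius

/-!
# PROJECT K (S30), slice K-1e: the Frobenius density theorem in the language of the Prelude

`F1` is the number-field statement (slice K-1d), taken here as a hypothesis:
for a finite Galois extension `L/ℚ`, `σ ∈ Gal(L/ℚ)` and a finite set `Σ` of primes there are a prime
`l ∉ Σ`, a maximal ideal `Q` of `𝓞 L` over `l` with trivial inertia group, and `k` prime to the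
order of `σ` such that `σ^k` is the Frobenius at `Q`.

`frobenius_density` is the statement (F2) consumed by the determinant lemma of PROJECT J:
for a finite `L ⊆ ℚ̄`, `σ ∈ G_ℚ` and `Σ` there are `l ∉ Σ`, a valuation subring `A` of `ℚ̄` over `l`,
a Frobenius element `τ` at `A` and `k, j` with `τ = σ^k` and `(σ^k)^j = σ` on `L`.
-/

set_option autoImplicit false
set_option linter.unusedSectionVars false
set_option linter.style.haveILetI false

noncomputable section

namespace Fermat.Agent.S30.Density.Bridge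

open NumberField Fermat.Agent.Lib.FrobeniusExists

/-- **(F1)**, the Frobenius density theorem (existence form) for finite Galois extensions of `ℚ`. -/
def F1 : Prop :=
  ∀ (L : Type) [Field L] [Algebra ℚ L] [FiniteDimensional ℚ L] [IsGalois ℚ L]
    (σ : L ≃ₐ[ℚ] L) (S : Finset ℕ),
    ∃ (l k : ℕ) (Q : Ideal (𝓞 L)), l.Prime ∧ l ∉ S ∧ Nat.Coprime k (orderOf σ) ∧ Q.IsMaximal ∧
      ((l : 𝓞 L) ∈ Q) ∧
      (∀ x : 𝓞 L, ∃ y ∈ Q, (σ ^ k) (x : L) - (x : L) ^ l = (y : L)) ∧
      (∀ ρ : L ≃ₐ[ℚ] L, (∀ x : 𝓞 L, ∃ y ∈ Q, ρ (x : L) - (x : L) = (y : L)) → ρ = 1)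

/-- **(F1)** in number-field shape; this is `Frobenius.exists_frob_elementwise`. -/
def F1nf : Prop :=
  ∀ (L : Type) [Field L] [NumberField L] [IsGalois ℚ L] (σ : L ≃ₐ[ℚ] L) (S : Finset ℕ),
    ∃ (l k : ℕ) (Q : Ideal (𝓞 L)), l.Prime ∧ l ∉ S ∧ Nat.Coprime k (orderOf σ) ∧ Q.IsPrime ∧
      ((l : 𝓞 L) ∈ Q) ∧
      (∀ x : 𝓞 L, ∃ y ∈ Q, (σ ^ k) (x : L) - (x : L) ^ l = (y : L)) ∧
      (∀ ρ : L ≃ₐ[ℚ] L, (∀ x : 𝓞 L, ∃ y ∈ Q, ρ (x : L) - (x : L) = (y : L)) → ρ = 1)

/-- The density theorem of slice K-1d. -/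
theorem f1nf : F1nf := fun _ _ _ _ σ S => Frobenius.exists_frob_elementwise σ S

/-- Transport of the `ℚ`-algebra structure and `IsPrime → IsMaximal`. -/
theorem F1_of_F1nf (h : F1nf) : F1 := by
  intro L _ instA _ _ σ S
  haveI : CharZero L := algebraRat.charZero L
  obtain rfl : instA = DivisionRing.toRatAlgebra := Subsingleton.elim _ _
  haveI : NumberField L := { to_charZero := inferInstance, to_finiteDimensional := inferInstance }
  obtain ⟨l, k, Q, hl, hlS, hk, hQ, hlQ, hfrob, hinert⟩ := h L σ S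
  refine ⟨l, k, Q, hl, hlS, hk, ?_, hlQ, hfrob, hinert⟩
  have hQne : Q ≠ ⊥ := by
    rintro rfl
    have h0 : (l : 𝓞 L) = 0 := by simpa using hlQ
    exact (Nat.cast_ne_zero.mpr hl.ne_zero) h0
  exact hQ.isMaximal hQne

/-- **(F1)**, unconditionally. -/
theorem f1 : F1 := F1_of_F1nf f1nf

/-! ### Frobenius elements and congruences -/

section Congr

variable {K L : Type*} [Field K] [Field L] [Algebra K L]

/-- A Frobenius element satisfies `τ a ≡ a^q` modulo the maximal ideal. -/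
theorem IsFrobeniusAt.sub_pow_mem_nonunits {A : ValuationSubring L} {τ : L ≃ₐ[K] L} {q : ℕ}
    (h : A.IsFrobeniusAt τ q) {a : L} (ha : a ∈ A) : τ a - a ^ q ∈ A.nonunits := by
  obtain ⟨hdec, hfr⟩ := h
  have h1 := hfr (IsLocalRing.residue A ⟨a, ha⟩)
  rw [← IsLocalRing.ResidueField.residue_smul, ← map_pow, ← sub_eq_zero, ← map_sub,
    IsLocalRing.residue_eq_zero_iff, ← A.coe_mem_nonunits_iff] at h1
  exact h1

end Congr

/-! ### A valuation subring of a big field centred at a maximal ideal of `𝓞 L'` -/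

section Centre

variable {F Ω : Type*} [Field F] [Field Ω] [Algebra F Ω] (L' : IntermediateField F Ω)

/-- The inclusion `𝓞 L' → Ω`. -/
def incl : 𝓞 L' →+* Ω := (algebraMap L' Ω).comp (algebraMap (𝓞 L') L')

theorem incl_apply (x : 𝓞 L') : incl L' x = ((x : L') : Ω) := rfl

theorem incl_injective : Function.Injective (incl L') := by
  intro x y h
  apply RingOfIntegers.ext
  exact Subtype.ext h

theorem isIntegral_incl (x : 𝓞 L') : IsIntegral ℤ (incl L' x) := by
  have h := RingOfIntegers.isIntegral_coe x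
  exact h.map ((algebraMap L' Ω).toIntAlgHom)

/-- There is a valuation subring of `Ω` whose centre on `𝓞 L'` contains a given proper ideal. -/
theorem exists_valuationSubring_of_ideal (Q : Ideal (𝓞 L')) (hQ : Q ≠ ⊤) :
    ∃ A : ValuationSubring Ω, ∀ y ∈ Q, incl L' y ∈ A.nonunits := by
  let f : 𝓞 L' →+* Ω := incl L'
  let e : 𝓞 L' ≃+* f.range :=
    RingEquiv.ofBijective f.rangeRestrict
      ⟨fun x y h => incl_injective L' (congrArg (fun z : f.range => (z : Ω)) h),
        f.rangeRestrict_surjective⟩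
  let I : Ideal f.range := Q.comap (e.symm : f.range →+* 𝓞 L')
  have hI : I ≠ ⊤ := by
    intro h
    apply hQ
    rw [Ideal.eq_top_iff_one] at h ⊢
    have : (e.symm : f.range →+* 𝓞 L') 1 ∈ Q := h
    simpa using this
  obtain ⟨A, -, hA⟩ := Ideal.image_subset_nonunits_valuationSubring I hI
  refine ⟨A, fun y hy => hA ⟨e y, ?_, rfl⟩⟩
  show (e.symm : f.range →+* 𝓞 L') (e y) ∈ Q
  simpa using hy

/-- The centre of a valuation subring of `Ω` on `𝓞 L'`. -/
def centre (A : ValuationSubring Ω) : Ideal (𝓞 L') :=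
  Ideal.comap
    ((incl L').codRestrict A.toSubring (fun x => integral_mem A _ (isIntegral_incl L' x)))
    (IsLocalRing.maximalIdeal A)

theorem mem_centre_iff (A : ValuationSubring Ω) (x : 𝓞 L') :
    x ∈ centre L' A ↔ incl L' x ∈ A.nonunits := by
  unfold centre
  rw [Ideal.mem_comap, ← A.coe_mem_nonunits_iff]
  rfl

theorem centre_ne_top (A : ValuationSubring Ω) : centre L' A ≠ ⊤ := by
  intro h
  have h1 : (1 : 𝓞 L') ∈ centre L' A := by rw [h]; trivial
  rw [mem_centre_iff, map_one, A.mem_nonunits_iff] at h1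
  simp at h1

/-- If the centre contains a maximal ideal, it is that ideal. -/
theorem centre_eq (A : ValuationSubring Ω) {Q : Ideal (𝓞 L')} (hQ : Q.IsMaximal)
    (h : ∀ y ∈ Q, incl L' y ∈ A.nonunits) : centre L' A = Q :=
  (hQ.eq_of_le (centre_ne_top L' A) (fun y hy => (mem_centre_iff L' A y).mpr (h y hy))).symm

end Centre

/-! ### The action of automorphisms on rings of integers -/

section Act

variable {F L' : Type*} [Field F] [Field L'] [Algebra F L']

/-- The action of an automorphism on the ring of integers. -/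
def oi (g : L' ≃ₐ[F] L') : 𝓞 L' →+* 𝓞 L' := RingOfIntegers.mapRingHom (g : L' →+* L')

theorem coe_oi (g : L' ≃ₐ[F] L') (x : 𝓞 L') : ((oi g x : 𝓞 L') : L') = g (x : L') := rfl

theorem oi_one (x : 𝓞 L') : oi (1 : L' ≃ₐ[F] L') x = x := RingOfIntegers.ext rfl

theorem oi_mul (g h : L' ≃ₐ[F] L') (x : 𝓞 L') : oi (g * h) x = oi g (oi h x) :=
  RingOfIntegers.ext rfl

theorem oi_pow_mem (g : L' ≃ₐ[F] L') (Q : Ideal (𝓞 L')) (h : ∀ x ∈ Q, oi g x ∈ Q) (n : ℕ) :
    ∀ x ∈ Q, oi (g ^ n) x ∈ Q := by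
  induction n with
  | zero =>
    intro x hx
    rw [pow_zero, oi_one]
    exact hx
  | succ n ih =>
    intro x hx
    rw [pow_succ', oi_mul]
    exact h _ (ih x hx)

theorem oi_inv_mem [Finite (L' ≃ₐ[F] L')] (g : L' ≃ₐ[F] L') (Q : Ideal (𝓞 L'))
    (h : ∀ x ∈ Q, oi g x ∈ Q) : ∀ x ∈ Q, oi g⁻¹ x ∈ Q := by
  have hfin : IsOfFinOrder g := isOfFinOrder_of_finite g
  have h2 : g⁻¹ = g ^ (orderOf g - 1) := by
    rw [eq_comm, ← mul_eq_one_iff_eq_inv, ← pow_succ,
      Nat.sub_add_cancel hfin.orderOf_pos, pow_orderOf_eq_one]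
  rw [h2]
  exact oi_pow_mem g Q h _

end Act

/-! ### The bridge -/

section Main

local notation "Qb" => AlgebraicClosure ℚ

/-- **(F2) Frobenius density in the language of the Prelude**, from the number-field statement
`F1`. -/
theorem frobenius_density (hF1 : F1) (L : IntermediateField ℚ Qb) [FiniteDimensional ℚ L]
    (σ : Qb ≃ₐ[ℚ] Qb) (S : Finset ℕ) :
    ∃ l : ℕ, l.Prime ∧ l ∉ S ∧ ∃ (A : ValuationSubring Qb) (τ : Qb ≃ₐ[ℚ] Qb) (k j : ℕ),
      A.LiesOverPrime l ∧ A.IsFrobeniusAt τ l ∧ (∀ x ∈ L, τ x = (σ ^ k) x) ∧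
      (∀ x ∈ L, ((σ ^ k) ^ j) x = σ x) := by
  classical
  -- the normal closure
  set L' : IntermediateField ℚ Qb := IntermediateField.normalClosure ℚ L Qb with hL'
  haveI : Normal ℚ Qb := IsAlgClosure.normal ℚ Qb
  haveI : Normal ℚ L' := normalClosure.normal ℚ L Qb
  haveI : FiniteDimensional ℚ L' := normalClosure.is_finiteDimensional ℚ L Qb
  haveI : IsGalois ℚ L' := ⟨⟩
  have hLL' : L ≤ L' := IntermediateField.le_normalClosure L
  let res : (Qb ≃ₐ[ℚ] Qb) →* (L' ≃ₐ[ℚ] L') := AlgEquiv.restrictNormalHom L'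
  have hres : ∀ (g : Qb ≃ₐ[ℚ] Qb) (x : L'), ((res g x : L') : Qb) = g (x : Qb) :=
    fun g x => AlgEquiv.restrictNormal_commutes g L' x
  obtain ⟨l, k, Q, hl, hlS, hk, hQ, hlQ, hfrob, hinert⟩ := hF1 L' (res σ) S
  -- the valuation subring and the Frobenius element
  obtain ⟨A, hA⟩ := exists_valuationSubring_of_ideal L' Q hQ.ne_top
  have hAl : A.LiesOverPrime l := by
    have := hA _ hlQ
    rw [incl_apply] at this
    show (l : Qb) ∈ A.nonunits
    simpa using this
  obtain ⟨τ, hτ⟩ := exists_isFrobeniusAt_algebraicClosure A hl hAl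
  have hcentre : centre L' A = Q := centre_eq L' A hQ hA
  -- `σ'^k` preserves `Q`
  set φ : L' ≃ₐ[ℚ] L' := res σ ^ k with hφ
  have hφQ : ∀ x ∈ Q, oi φ x ∈ Q := by
    intro x hx
    obtain ⟨y, hy, hxy⟩ := hfrob x
    have h1 : oi φ x = y + x ^ l := by
      apply RingOfIntegers.ext
      have h0 : ((y + x ^ l : 𝓞 L') : L') = (y : L') + (x : L') ^ l := rfl
      rw [coe_oi, h0, ← hxy]
      ring
    rw [h1]
    exact Q.add_mem hy (Q.pow_mem_of_mem hx l hl.pos)
  have hφinvQ : ∀ x ∈ Q, oi φ⁻¹ x ∈ Q := oi_inv_mem φ Q hφQ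
  -- `ρ := φ⁻¹ * τ|L'` lies in the inertia group
  set ρ : L' ≃ₐ[ℚ] L' := φ⁻¹ * res τ with hρ
  have hρ1 : ρ = 1 := by
    apply hinert
    intro x
    -- `z = τ x - φ x ∈ Q`
    have hz : oi (res τ) x - oi φ x ∈ Q := by
      have h0 : ((oi (res τ) x - oi φ x : 𝓞 L') : L') = res τ (x : L') - φ (x : L') := rfl
      have h00 : ((res τ (x : L') - φ (x : L') : L') : Qb) =
          ((res τ (x : L') : L') : Qb) - ((φ (x : L') : L') : Qb) := rfl
      rw [← hcentre, mem_centre_iff, incl_apply, h0, h00, hres]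
      obtain ⟨y, hy, hxy⟩ := hfrob x
      have hxA : ((x : L') : Qb) ∈ A := integral_mem A _ (isIntegral_incl L' x)
      have h1 := IsFrobeniusAt.sub_pow_mem_nonunits hτ hxA
      have h2 : (((φ (x : L') : L') : Qb)) - ((x : L') : Qb) ^ l ∈ A.nonunits := by
        have := hA y hy
        rw [incl_apply, ← hxy] at this
        simpa using this
      have h3 : τ ((x : L') : Qb) - ((φ (x : L') : L') : Qb) =
          (τ ((x : L') : Qb) - ((x : L') : Qb) ^ l) -
            ((((φ (x : L') : L') : Qb)) - ((x : L') : Qb) ^ l) := by ring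
      rw [h3]
      exact A.nonunits.sub_mem h1 h2
    refine ⟨_, hφinvQ _ hz, ?_⟩
    have h0 : ((oi (res τ) x - oi φ x : 𝓞 L') : L') = res τ (x : L') - φ (x : L') := rfl
    rw [coe_oi, h0, map_sub, hρ, AlgEquiv.mul_apply]
    have : φ⁻¹ (φ (x : L')) = (x : L') := by
      rw [← AlgEquiv.mul_apply, inv_mul_cancel, AlgEquiv.one_apply]
    rw [this]
  have hτφ : res τ = φ := by
    have := congrArg (fun g => φ * g) hρ1
    simpa [hρ] using this
  -- the inverse exponent
  obtain ⟨j, hj⟩ : ∃ j : ℕ, φ ^ j = res σ := exists_pow_eq_self_of_coprime hk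
  refine ⟨l, hl, hlS, A, τ, k, j, hAl, hτ, ?_, ?_⟩
  · intro x hx
    have h1 := hres τ ⟨x, hLL' hx⟩
    rw [hτφ, hφ, ← map_pow, hres] at h1
    exact h1.symm
  · intro x hx
    have h1 := hres ((σ ^ k) ^ j) ⟨x, hLL' hx⟩
    rw [map_pow, map_pow, ← hφ, hj, hres] at h1
    exact h1.symm

/-- **(F2) Frobenius density in the language of the Prelude**, hypothesis-free: for a finite
`L ⊆ ℚ̄`, `σ ∈ G_ℚ` and a finite set `S` of primes there are a prime `l ∉ S`, a valuation subring `A`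
of `ℚ̄` over `l`, a Frobenius element `τ` at `A` and `k, j` with `τ = σ^k` and `(σ^k)^j = σ`
on `L`. -/
theorem frobenius_density_final (L : IntermediateField ℚ Qb) [FiniteDimensional ℚ L]
    (σ : Qb ≃ₐ[ℚ] Qb) (S : Finset ℕ) :
    ∃ l : ℕ, l.Prime ∧ l ∉ S ∧ ∃ (A : ValuationSubring Qb) (τ : Qb ≃ₐ[ℚ] Qb) (k j : ℕ),
      A.LiesOverPrime l ∧ A.IsFrobeniusAt τ l ∧ (∀ x ∈ L, τ x = (σ ^ k) x) ∧
      (∀ x ∈ L, ((σ ^ k) ^ j) x = σ x) :=
  frobenius_density f1 L σ S

end Main

end Fermat.Agent.S30.Density.Bridge
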