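import Fermat.Agent.S30.Density.CyclicFrob

/-!
# K-1c (C3) in the element-level shape consumed by K-1d

`exists_coprime_frob` / `exists_coprime_frob_of_inertia` : `L/M` Galois with group generated by
`τ`, `q` a finite place of `M` with a single prime `Q` of `L` above it, unramified (either
`Q.ramificationIdx (𝓞 M) = 1` or trivial inertia group) ⟹ there is `k` prime to `orderOf τ` with
`(τ ^ k) • x - x ^ N(q) ∈ Q` for all `x : 𝓞 L`.
-/

namespace Fermat.Agent.S30.Density.CyclicFrobShape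

open NumberField IsDedekindDomain

open scoped Pointwise

variable {M L : Type*} [Field M] [Field L] [NumberField M] [NumberField L] [Algebra M L]
  [IsGalois M L]

theorem exists_coprime_frob (τ : L ≃ₐ[M] L) (hτ : ∀ t, t ∈ Subgroup.zpowers τ)
    (q : HeightOneSpectrum (𝓞 M)) (Q : Ideal (𝓞 L)) [Q.IsPrime] [Q.LiesOver q.asIdeal]
    (hg : (q.asIdeal.primesOver (𝓞 L)).ncard = 1) (hunr : Q.ramificationIdx (𝓞 M) = 1) :
    ∃ k : ℕ, k.Coprime (orderOf τ) ∧
      ∀ x : 𝓞 L, (τ ^ k) • x - x ^ (Ideal.absNorm q.asIdeal) ∈ Q := by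
  have : q.asIdeal.IsMaximal := q.isMaximal
  have hunr' : q.asIdeal.ramificationIdxIn (𝓞 L) = 1 := by
    rw [Ideal.ramificationIdxIn_eq_ramificationIdx q.asIdeal Q Gal(L/M), hunr]
  obtain ⟨k, hk, hF⟩ :=
    CyclicFrob.exists_coprime_pow_eq_frob τ hτ q.asIdeal q.ne_bot Q hunr' hg
  refine ⟨k, hk, fun x => ?_⟩
  have h1 := hF x
  rwa [← Ideal.over_def Q q.asIdeal, ← Submodule.cardQuot_apply, ← Ideal.absNorm_apply] at h1

theorem ramificationIdx_eq_one_of_inertia (q : HeightOneSpectrum (𝓞 M)) (Q : Ideal (𝓞 L))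
    [Q.IsPrime] [Q.LiesOver q.asIdeal] (hunr : Q.inertia Gal(L/M) = ⊥) :
    Q.ramificationIdx (𝓞 M) = 1 := by
  have : q.asIdeal.IsMaximal := q.isMaximal
  have : Finite (𝓞 M ⧸ q.asIdeal) := Ring.HasFiniteQuotients.finiteQuotient q.ne_bot
  rw [← Ideal.ramificationIdxIn_eq_ramificationIdx q.asIdeal Q Gal(L/M),
    ← Ideal.card_inertia_eq_ramificationIdxIn (G := Gal(L/M)) q.asIdeal Q, hunr]
  exact Subgroup.card_bot

theorem exists_coprime_frob_of_inertia (τ : L ≃ₐ[M] L) (hτ : ∀ t, t ∈ Subgroup.zpowers τ)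
    (q : HeightOneSpectrum (𝓞 M)) (Q : Ideal (𝓞 L)) [Q.IsPrime] [Q.LiesOver q.asIdeal]
    (hg : (q.asIdeal.primesOver (𝓞 L)).ncard = 1) (hunr : Q.inertia Gal(L/M) = ⊥) :
    ∃ k : ℕ, k.Coprime (orderOf τ) ∧
      ∀ x : 𝓞 L, (τ ^ k) • x - x ^ (Ideal.absNorm q.asIdeal) ∈ Q :=
  exists_coprime_frob τ hτ q Q hg (ramificationIdx_eq_one_of_inertia q Q hunr)

end Fermat.Agent.S30.Density.CyclicFrobShape
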