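/-
PROJECT K, slice K-1a, part 3: small complements to `Density/PrimeSum.lean` requested by K-1d:
finiteness of the set of places of bounded norm / over finitely many rational primes,
invariance of the logarithmic density under finite changes, finite disjoint unions.
-/
import Fermat.Agent.S30.Density.PrimeSum

namespace Fermat.Agent.S30.Density.PrimeSumExtra

open NumberField Ideal Filter Topology IsDedekindDomain Asymptotics
open Fermat.Agent.S30.Density.ZetaEuler Fermat.Agent.S30.Density.PrimeSum

variable {K : Type*} [Field K] [NumberField K]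

/-- Finitely many finite places have norm in a given finite set. -/
theorem finite_setOf_nrm_mem (T : Finset ℕ) :
    {v : HeightOneSpectrum (𝓞 K) | nrm v ∈ T}.Finite := by
  have h1 : {I : Ideal (𝓞 K) | absNorm I ∈ T}.Finite := by
    have : {I : Ideal (𝓞 K) | absNorm I ∈ T} = ⋃ n ∈ T, {I : Ideal (𝓞 K) | absNorm I = n} := by
      ext I
      simp
    rw [this]
    exact Set.Finite.biUnion T.finite_toSet fun n _ ↦ Ideal.finite_setOfPred_absNorm_eq n
  exact Set.Finite.of_injOn (f := fun v : HeightOneSpectrum (𝓞 K) ↦ v.asIdeal)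
    (fun v hv ↦ hv) (asIdeal_injective.injOn) h1

/-- Finitely many finite places have norm `≤ n`. -/
theorem finite_setOf_nrm_le (n : ℕ) : {v : HeightOneSpectrum (𝓞 K) | nrm v ≤ n}.Finite := by
  refine (finite_setOf_nrm_mem (K := K) (Finset.range (n + 1))).subset fun v hv ↦ ?_
  simpa [Nat.lt_succ_iff] using hv

/-- Finitely many finite places lie over a given finite set of rational primes. -/
theorem finite_setOf_pOf_mem (T : Finset ℕ) :
    {v : HeightOneSpectrum (𝓞 K) | pOf v ∈ T}.Finite := by
  classical
  have : {v : HeightOneSpectrum (𝓞 K) | pOf v ∈ T} =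
      ⋃ p ∈ T, {v : HeightOneSpectrum (𝓞 K) | pOf v = p} := by
    ext v
    simp
  rw [this]
  refine Set.Finite.biUnion T.finite_toSet fun p _ ↦ ?_
  by_cases hp : p.Prime
  · have : Fact p.Prime := ⟨hp⟩
    refine Set.Finite.of_injOn (f := fun v : HeightOneSpectrum (𝓞 K) ↦ v.asIdeal)
      (t := (span {(p : ℤ)}).primesOver (𝓞 K)) ?_ (asIdeal_injective.injOn)
      (IsDedekindDomain.primesOver_finite _ _)
    intro v hv
    refine ⟨v.isPrime, ?_⟩
    rw [← (show pOf v = p from hv)]
    exact liesOver_pOf v
  · convert Set.finite_empty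
    ext v
    simp only [Set.mem_ofPred_eq, Set.mem_empty_iff_false, iff_false]
    exact fun hv ↦ hp (hv ▸ pOf_prime v)

omit [NumberField K] in
/-- The place `v` lies over the rational prime `p` iff `pOf v = p`. -/
theorem pOf_eq_iff {v : HeightOneSpectrum (𝓞 K)} {p : ℕ} (hp : p.Prime) :
    pOf v = p ↔ (p : 𝓞 K) ∈ v.asIdeal := by
  constructor
  · rintro rfl
    exact Int.absNorm_under_mem v.asIdeal
  · intro h
    have h1 : (pOf v : ℤ) ∣ (p : ℤ) := by
      have := (Int.cast_mem_ideal_iff (I := v.asIdeal) (d := (p : ℤ))).mp (by simpa using h)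
      exact this
    have h2 : pOf v ∣ p := by exact_mod_cast h1
    exact ((Nat.prime_dvd_prime_iff_eq (pOf_prime v) hp).mp h2)

/-- The logarithmic density does not change under a finite modification of the set. -/
theorem HasLogDensity.congr_of_finite_symmDiff {A B : Set (HeightOneSpectrum (𝓞 K))} {c : ℝ}
    (hA : HasLogDensity K A c) (h : (symmDiff A B).Finite) : HasLogDensity K B c := by
  have h1 : HasLogDensity K (A \ B) 0 :=
    HasLogDensity.of_finite (h.subset (fun v hv ↦ Or.inl hv))
  have h2 : HasLogDensity K (B \ A) 0 :=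
    HasLogDensity.of_finite (h.subset (fun v hv ↦ Or.inr hv))
  have h3 : HasLogDensity K (A \ (A \ B)) c := hA.diff_zero h1
  have h4 : HasLogDensity K ((A \ (A \ B)) ∪ (B \ A)) (c + 0) := by
    refine h3.union h2 ?_
    rw [Set.disjoint_left]
    intro v hv hv'
    exact hv'.2 hv.1
  have h5 : (A \ (A \ B)) ∪ (B \ A) = B := by
    ext v
    simp only [Set.mem_union, Set.mem_sdiff, not_and, not_not]
    tauto
  rwa [h5, add_zero] at h4

/-- Enlarging by / removing finite sets: the version with two inclusions. -/
theorem HasLogDensity.congr_of_finite_diff {A B : Set (HeightOneSpectrum (𝓞 K))} {c : ℝ}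
    (hA : HasLogDensity K A c) (h1 : (A \ B).Finite) (h2 : (B \ A).Finite) :
    HasLogDensity K B c :=
  HasLogDensity.congr_of_finite_symmDiff hA (h1.union h2)

/-- Finite pairwise disjoint unions add logarithmic densities. -/
theorem HasLogDensity.biUnion {ι : Type*} (I : Finset ι)
    (A : ι → Set (HeightOneSpectrum (𝓞 K))) (c : ι → ℝ)
    (hA : ∀ i ∈ I, HasLogDensity K (A i) (c i))
    (hd : ∀ i ∈ I, ∀ j ∈ I, i ≠ j → Disjoint (A i) (A j)) :
    HasLogDensity K (⋃ i ∈ I, A i) (∑ i ∈ I, c i) := by
  classical
  induction I using Finset.induction_on with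
  | empty =>
    simp only [Finset.notMem_empty, Set.iUnion_of_empty, Set.iUnion_empty, Finset.sum_empty]
    exact HasLogDensity.of_finite Set.finite_empty
  | insert a I ha ih =>
    rw [Finset.set_biUnion_insert, Finset.sum_insert ha]
    refine (hA a (Finset.mem_insert_self a I)).union
      (ih (fun i hi ↦ hA i (Finset.mem_insert_of_mem hi))
        (fun i hi j hj hij ↦ hd i (Finset.mem_insert_of_mem hi) j
          (Finset.mem_insert_of_mem hj) hij)) ?_
    rw [Set.disjoint_iUnion₂_right]
    intro i hi
    exact hd a (Finset.mem_insert_self a I) i (Finset.mem_insert_of_mem hi)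
      (fun h ↦ ha (h ▸ hi))

/-- Unfolding `HasLogDensity` to the raw form used by `CyclicCore`. -/
theorem hasLogDensity_iff {A : Set (HeightOneSpectrum (𝓞 K))} {c : ℝ} :
    HasLogDensity K A c ↔
      (fun s : ℝ ↦ (∑' v : A, pterm s v.1) - c * Real.log (1 / (s - 1)))
        =O[𝓝[>] 1] (fun _ ↦ (1 : ℝ)) := Iff.rfl

end Fermat.Agent.S30.Density.PrimeSumExtra
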