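/-
PROJECT K: adapter between the `HasLogDensity` API (`Density/PrimeSum.lean`) and the abstract
Moebius core (`Density/CyclicCore.lean`).
-/
import Fermat.Agent.S30.Density.PrimeSumExtra
import Fermat.Agent.S30.Density.CyclicCore

namespace Fermat.Agent.S30.Density.CyclicGlue

open NumberField Ideal Filter Topology IsDedekindDomain Asymptotics
open Fermat.Agent.S30.Density.ZetaEuler Fermat.Agent.S30.Density.PrimeSum

variable {M : Type*} [Field M] [NumberField M]

/-- **Cyclic density lemma in `HasLogDensity` form.**  `A` is a set of finite places of `M`,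
`m v` a divisor of `f` for `v ∈ A` (think: the number of primes of a cyclic extension of degree
`f` above `v`).  If for every `d ∣ f` the set `{v ∈ A | d ∣ m v}` has logarithmic density `1/d`,
then `{v ∈ A | m v = 1}` is infinite. -/
theorem infinite_of_hasLogDensity (A : Set (HeightOneSpectrum (𝓞 M))) (f : ℕ) (hf : 0 < f)
    (m : HeightOneSpectrum (𝓞 M) → ℕ) (hm : ∀ v ∈ A, m v ∣ f)
    (hdens : ∀ d ∈ f.divisors, HasLogDensity M {v | v ∈ A ∧ d ∣ m v} (1 / (d : ℝ))) :
    {v | v ∈ A ∧ m v = 1}.Infinite := by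
  have h := CyclicCore.infinite_of_density (P := A) (fun q s ↦ pterm s q.1)
    (fun q s _ ↦ pterm_nonneg s q.1) (fun s hs ↦ summable_set M A hs)
    (fun q ↦ ⟨1, fun s hs ↦ pterm_le_one (by linarith) q.1⟩) f hf (fun q ↦ m q.1)
    (fun q ↦ hm q.1 q.2) (fun d hd ↦ by
      have h1 := hdens d hd
      rw [HasLogDensity] at h1
      refine h1.congr_left fun s ↦ ?_
      rw [tsum_subtype_subtype A (fun q ↦ d ∣ m q.1) s]
      congr 2
      ext v
      simp)
  have h2 : {v | v ∈ A ∧ m v = 1} = Subtype.val '' {q : A | m q.1 = 1} := by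
    ext v
    simp only [Set.mem_ofPred_eq, Set.mem_image, Subtype.exists, exists_and_right, exists_eq_right]
    constructor
    · rintro ⟨h1, h2⟩
      exact ⟨h1, h2⟩
    · rintro ⟨h1, h2⟩
      exact ⟨h1, h2⟩
  rw [h2]
  exact h.image Subtype.val_injective.injOn

/-- The same, with a finite set of places removed: there is a place in `A` with `m v = 1`
outside any given finite set. -/
theorem exists_of_hasLogDensity (A : Set (HeightOneSpectrum (𝓞 M))) (f : ℕ) (hf : 0 < f)
    (m : HeightOneSpectrum (𝓞 M) → ℕ) (hm : ∀ v ∈ A, m v ∣ f)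
    (hdens : ∀ d ∈ f.divisors, HasLogDensity M {v | v ∈ A ∧ d ∣ m v} (1 / (d : ℝ)))
    {B : Set (HeightOneSpectrum (𝓞 M))} (hB : B.Finite) :
    ∃ v, v ∈ A ∧ m v = 1 ∧ v ∉ B := by
  obtain ⟨v, hv, hvB⟩ := ((infinite_of_hasLogDensity A f hf m hm hdens).sdiff hB).nonempty
  exact ⟨v, hv.1, hv.2, hvB⟩

end Fermat.Agent.S30.Density.CyclicGlue
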