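/-
PROJECT K, slice K-1d (D4): element-level reading of Mathlib's `IsArithFrobAt ℤ g Q` for a number
field `L`, uniqueness of the Frobenius / triviality of inertia at unramified primes, and
unramifiedness away from the discriminant.
-/
import Mathlib

namespace Fermat.Agent.S30.Density.FrobElement

open NumberField Ideal

variable {L : Type*} [Field L] [NumberField L]

theorem coe_smul (g : L ≃ₐ[ℚ] L) (x : 𝓞 L) : ((g • x : 𝓞 L) : L) = g (x : L) := rfl

omit [NumberField L] in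
theorem coe_sub (x y : 𝓞 L) : ((x - y : 𝓞 L) : L) = (x : L) - (y : L) :=
  map_sub (algebraMap (𝓞 L) L) x y

omit [NumberField L] in
theorem coe_pow (x : 𝓞 L) (n : ℕ) : ((x ^ n : 𝓞 L) : L) = (x : L) ^ n :=
  map_pow (algebraMap (𝓞 L) L) x n

omit [NumberField L] in
/-- `Q` lies over `(l)`: the residue cardinality of `Q ∩ ℤ` is `l`. -/
theorem card_quot_under (Q : Ideal (𝓞 L)) (l : ℕ) [Q.LiesOver (span {(l : ℤ)})] :
    Nat.card (ℤ ⧸ Q.under ℤ) = l := by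
  rw [← Ideal.over_def Q (span {(l : ℤ)})]
  exact Int.card_ideal_quot l

omit [NumberField L] in
theorem natCast_mem_of_liesOver (Q : Ideal (𝓞 L)) (l : ℕ) [Q.LiesOver (span {(l : ℤ)})] :
    (l : 𝓞 L) ∈ Q := by
  have h1 : (l : ℤ) ∈ Q.under ℤ := by
    rw [← Ideal.over_def Q (span {(l : ℤ)})]
    exact Ideal.mem_span_singleton_self _
  simpa [Ideal.under_def] using h1

theorem ne_bot_of_liesOver (Q : Ideal (𝓞 L)) {l : ℕ} (hl : l ≠ 0) [Q.LiesOver (span {(l : ℤ)})] :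
    Q ≠ ⊥ := by
  intro h
  have h1 := natCast_mem_of_liesOver Q l
  rw [h, Ideal.mem_bot] at h1
  exact hl (by exact_mod_cast h1)

/-- (i) **Element-level form of `IsArithFrobAt`** for a prime `Q` over the rational prime `l`. -/
theorem isArithFrobAt_iff (g : L ≃ₐ[ℚ] L) (Q : Ideal (𝓞 L)) (l : ℕ)
    [Q.LiesOver (span {(l : ℤ)})] :
    IsArithFrobAt ℤ g Q ↔ ∀ x : 𝓞 L, g • x - x ^ l ∈ Q := by
  unfold IsArithFrobAt AlgHom.IsArithFrobAt
  rw [card_quot_under Q l]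
  rfl

/-- (ii-a) The Frobenius congruence read in `L`. -/
theorem exists_mem_of_isArithFrobAt {g : L ≃ₐ[ℚ] L} {Q : Ideal (𝓞 L)} {l : ℕ}
    [Q.LiesOver (span {(l : ℤ)})] (h : IsArithFrobAt ℤ g Q) (x : 𝓞 L) :
    ∃ y ∈ Q, g (x : L) - (x : L) ^ l = (y : L) :=
  ⟨g • x - x ^ l, (isArithFrobAt_iff g Q l).mp h x, by
    rw [coe_sub, coe_pow, coe_smul]⟩

/-- Conversely, the congruence read in `L` gives `IsArithFrobAt`. -/
theorem isArithFrobAt_of_exists_mem {g : L ≃ₐ[ℚ] L} {Q : Ideal (𝓞 L)} {l : ℕ}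
    [Q.LiesOver (span {(l : ℤ)})]
    (h : ∀ x : 𝓞 L, ∃ y ∈ Q, g (x : L) - (x : L) ^ l = (y : L)) : IsArithFrobAt ℤ g Q := by
  rw [isArithFrobAt_iff g Q l]
  intro x
  obtain ⟨y, hy, hxy⟩ := h x
  have : g • x - x ^ l = y := by
    apply RingOfIntegers.ext
    rw [← hxy, coe_sub, coe_pow, coe_smul]
  rw [this]
  exact hy

/-- Two automorphisms agreeing on the ring of integers are equal. -/
theorem eq_of_forall_smul_eq {g h : L ≃ₐ[ℚ] L} (H : ∀ x : 𝓞 L, g • x = h • x) : g = h := by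
  ext z
  obtain ⟨x, y, hy, rfl⟩ := IsFractionRing.div_surjective (A := 𝓞 L) z
  have hx := congrArg (fun t : 𝓞 L ↦ (t : L)) (H x)
  have hy' := congrArg (fun t : 𝓞 L ↦ (t : L)) (H y)
  simp only [map_div₀]
  exact congrArg₂ (· / ·) hx hy'

theorem mem_inertia_iff {rho : L ≃ₐ[ℚ] L} {Q : Ideal (𝓞 L)} :
    rho ∈ Q.inertia (L ≃ₐ[ℚ] L) ↔ ∀ x : 𝓞 L, ∃ y ∈ Q, rho (x : L) - (x : L) = (y : L) := by
  rw [AddSubgroup.mem_inertia]
  constructor
  · intro h x
    exact ⟨rho • x - x, h x, by rw [coe_sub, coe_smul]⟩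
  · intro h x
    obtain ⟨y, hy, hxy⟩ := h x
    have : rho • x - x = y := by
      apply RingOfIntegers.ext
      rw [← hxy, coe_sub, coe_smul]
    change rho • x - x ∈ Q
    rw [this]
    exact hy

/-- (ii-b) **At an unramified prime carrying a Frobenius element, the inertia group is trivial.** -/
theorem eq_one_of_mem_inertia {g : L ≃ₐ[ℚ] L} {Q : Ideal (𝓞 L)} [Q.IsPrime]
    [Algebra.IsUnramifiedAt ℤ Q] (h : IsArithFrobAt ℤ g Q) {rho : L ≃ₐ[ℚ] L}
    (hrho : rho ∈ Q.inertia (L ≃ₐ[ℚ] L)) : rho = 1 := by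
  have h2 : IsArithFrobAt ℤ (rho * g) Q := by
    intro x
    have h3 : (MulSemiringAction.toAlgHom ℤ (𝓞 L) (rho * g)) x -
        x ^ Nat.card (ℤ ⧸ Q.under ℤ) =
        (rho • (g • x) - g • x) + (g • x - x ^ Nat.card (ℤ ⧸ Q.under ℤ)) := by
      rw [MulSemiringAction.toAlgHom_apply, mul_smul]
      ring
    rw [h3]
    exact Q.add_mem (hrho (g • x)) (h x)
  have h4 : MulSemiringAction.toAlgHom ℤ (𝓞 L) (rho * g) =
      MulSemiringAction.toAlgHom ℤ (𝓞 L) g := by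
    refine AlgHom.IsArithFrobAt.eq_of_isUnramifiedAt h2 h ?_
    intro x hx
    refine mem_nonZeroDivisors_of_ne_zero ?_
    rintro rfl
    exact hx Q.zero_mem
  have h5 : rho * g = g := eq_of_forall_smul_eq fun x ↦ by
    have := DFunLike.congr_fun h4 x
    simpa [MulSemiringAction.toAlgHom_apply] using this
  exact mul_eq_right.mp h5

/-- (ii-b), element-level form used by K-1e. -/
theorem eq_one_of_forall_exists_mem {g : L ≃ₐ[ℚ] L} {Q : Ideal (𝓞 L)} [Q.IsPrime]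
    [Algebra.IsUnramifiedAt ℤ Q] (h : IsArithFrobAt ℤ g Q) (rho : L ≃ₐ[ℚ] L)
    (hrho : ∀ x : 𝓞 L, ∃ y ∈ Q, rho (x : L) - (x : L) = (y : L)) : rho = 1 :=
  eq_one_of_mem_inertia h (mem_inertia_iff.mpr hrho)

/-- (iii-a) A prime over `l ∤ disc L` is unramified. -/
theorem isUnramifiedAt_of_not_dvd_discr {l : ℕ} (hl : l.Prime) (hd : ¬ (l : ℤ) ∣ discr L)
    (Q : Ideal (𝓞 L)) [Q.IsPrime] [Q.LiesOver (span {(l : ℤ)})] :
    Algebra.IsUnramifiedAt ℤ Q := by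
  have h := (NumberField.not_dvd_discr_iff_forall_mem L (𝓞 L)
    (Nat.prime_iff_prime_int.mp hl)).mp hd Q inferInstance
  refine h ?_
  have := natCast_mem_of_liesOver Q l
  simpa using this

/-- (iii-b) At an unramified prime of a Galois number field the inertia group is trivial. -/
theorem inertia_eq_bot [IsGalois ℚ L] {l : ℕ} (hl : l.Prime) (Q : Ideal (𝓞 L)) [Q.IsPrime]
    [Q.LiesOver (span {(l : ℤ)})] [Algebra.IsUnramifiedAt ℤ Q] :
    Q.inertia (L ≃ₐ[ℚ] L) = ⊥ := by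
  have hQ : Q ≠ ⊥ := ne_bot_of_liesOver Q hl.ne_zero
  have : Finite (𝓞 L ⧸ Q) := Ideal.finiteQuotientOfFreeOfNeBot Q hQ
  obtain ⟨g, hg⟩ := IsArithFrobAt.exists_of_isInvariant ℤ (L ≃ₐ[ℚ] L) Q
  rw [eq_bot_iff]
  intro rho hrho
  rw [Subgroup.mem_bot]
  exact eq_one_of_mem_inertia hg hrho

end Fermat.Agent.S30.Density.FrobElement
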