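import Mathlib

/-!
# K-1d (D3): analytic glue for Frobenius' density theorem

Generic lemmas on `=O[𝓝[>] 1] 1` and on sums `∑' i : S, a i s` over sets of indices:
* `isBigO_one_of_bound` : a function bounded on `(1, ∞)` is `O(1)`;
* `isBigO_sub_of_finite_diff` : two sets of indices that differ by a finite set give sums that differ
  by `O(1)` (terms in `[0, 1]`);
* `isBigO_div_of_isBigO` : `A - ℓ = O(1)`, `A - d * B = O(1)` ⟹ `B - (1/d) * ℓ = O(1)`;
* reindexing lemmas between `∑'` over a subtype of a subtype and `∑'` over a set.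
-/

set_option autoImplicit false
set_option linter.unusedSectionVars false
set_option linter.style.haveILetI false

noncomputable section

namespace Fermat.Agent.S30.Density.FrobGlue

open Filter Topology Asymptotics

/-- A function bounded on `(1, ∞)` is `O(1)` at `1⁺`. -/
theorem isBigO_one_of_bound {f : ℝ → ℝ} (C : ℝ) (h : ∀ s, 1 < s → |f s| ≤ C) :
    f =O[𝓝[>] (1 : ℝ)] (fun _ => (1 : ℝ)) := by
  refine IsBigO.of_bound C ?_
  filter_upwards [self_mem_nhdsWithin] with s hs
  simpa using h s hs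

theorem isBigO_one_congr {f g : ℝ → ℝ} (h : f =O[𝓝[>] (1 : ℝ)] (fun _ => (1 : ℝ)))
    (hfg : ∀ s, 1 < s → f s = g s) : g =O[𝓝[>] (1 : ℝ)] (fun _ => (1 : ℝ)) := by
  refine h.congr' ?_ EventuallyEq.rfl
  filter_upwards [self_mem_nhdsWithin] with s hs
  exact hfg s hs

/-- `A - ℓ = O(1)` and `A - d * B = O(1)` give `B - (1/d) * ℓ = O(1)`. -/
theorem isBigO_div_of_isBigO {A B ℓ : ℝ → ℝ} {d : ℝ} (hd : d ≠ 0)
    (h1 : (fun s => A s - ℓ s) =O[𝓝[>] (1 : ℝ)] (fun _ => (1 : ℝ)))
    (h2 : (fun s => A s - d * B s) =O[𝓝[>] (1 : ℝ)] (fun _ => (1 : ℝ))) :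
    (fun s => B s - (1 / d) * ℓ s) =O[𝓝[>] (1 : ℝ)] (fun _ => (1 : ℝ)) := by
  have h3 : (fun s => (1 / d) * ((A s - ℓ s) - (A s - d * B s))) =O[𝓝[>] (1 : ℝ)]
      (fun _ => (1 : ℝ)) := (h1.sub h2).const_mul_left (1 / d)
  refine h3.congr_left fun s => ?_
  field_simp
  ring

section Sets

variable {ι : Type*} (a : ι → ℝ → ℝ)

/-- Sums over two sets of indices that differ by a finite set differ by `O(1)`, for terms in
`[0, 1]` that are summable over each of the two sets. -/
theorem isBigO_sub_of_finite_diff (S T : Set ι)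
    (h0 : ∀ i s, 1 < s → 0 ≤ a i s) (h1 : ∀ i s, 1 < s → a i s ≤ 1)
    (hS : ∀ s, 1 < s → Summable fun i : S => a i s)
    (hT : ∀ s, 1 < s → Summable fun i : T => a i s)
    (hfin : (symmDiff S T).Finite) :
    (fun s => (∑' i : S, a i s) - ∑' i : T, a i s) =O[𝓝[>] (1 : ℝ)] (fun _ => (1 : ℝ)) := by
  classical
  refine isBigO_one_of_bound (hfin.toFinset.card : ℝ) fun s hs => ?_
  -- both sums are sums over `S ∩ T` plus sums over the finite differences
  have hST : ∀ (U V : Set ι), (Summable fun i : U => a i s) → (U \ V).Finite →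
      (∑' i : U, a i s) = (∑' i : (U ∩ V : Set ι), a i s) + ∑' i : (U \ V : Set ι), a i s := by
    intro U V hU hUV
    have e : U = (U ∩ V) ∪ (U \ V) := (Set.inter_union_sdiff U V).symm
    have hdisj : Disjoint (U ∩ V) (U \ V) := Set.disjoint_left.mpr fun x hx hx' => hx'.2 hx.2
    have h1' : Summable fun i : (U ∩ V : Set ι) => a i s :=
      hU.comp_injective (i := fun x : (U ∩ V : Set ι) => (⟨x.1, x.2.1⟩ : U))
        (fun x y hxy => Subtype.ext (by simpa using congrArg Subtype.val hxy))
    have h2' : Summable fun i : (U \ V : Set ι) => a i s :=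
      hU.comp_injective (i := fun x : (U \ V : Set ι) => (⟨x.1, x.2.1⟩ : U))
        (fun x y hxy => Subtype.ext (by simpa using congrArg Subtype.val hxy))
    conv_lhs => rw [e]
    exact Summable.tsum_union_disjoint (f := fun i => a i s) hdisj h1' h2'
  have hdS : (S \ T).Finite := hfin.subset fun x hx => Or.inl hx
  have hdT : (T \ S).Finite := hfin.subset fun x hx => Or.inr hx
  rw [hST S T (hS s hs) hdS, hST T S (hT s hs) hdT, Set.inter_comm T S]
  have hb : ∀ (U : Set ι), U.Finite → U ⊆ symmDiff S T →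
      0 ≤ (∑' i : U, a i s) ∧ (∑' i : U, a i s) ≤ hfin.toFinset.card := by
    intro U hU hsub
    haveI := hU.fintype
    rw [tsum_fintype]
    refine ⟨Finset.sum_nonneg fun i _ => h0 _ _ hs, ?_⟩
    calc ∑ i : U, a i s ≤ ∑ _i : U, (1 : ℝ) := Finset.sum_le_sum fun i _ => h1 _ _ hs
      _ = (Fintype.card U : ℝ) := by simp
      _ ≤ hfin.toFinset.card := by
        have : Fintype.card U ≤ hfin.toFinset.card := by
          rw [← Set.toFinset_card]
          exact Finset.card_le_card fun x hx => by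
            simpa using hsub (by simpa using hx)
        exact_mod_cast this
  obtain ⟨p1, p2⟩ := hb (S \ T) hdS fun x hx => Or.inl hx
  obtain ⟨q1, q2⟩ := hb (T \ S) hdT fun x hx => Or.inr hx
  rw [abs_le]
  constructor <;> linarith

end Sets

end Fermat.Agent.S30.Density.FrobGlue
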