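/-
PROJECT K, slice K-1b (end form): the degree-one places of `M` that split completely in a finite
Galois extension `E / M` have logarithmic density `1 / [E : M]`, in the `HasLogDensity` API of
`Density/PrimeSum.lean`.
-/
import Fermat.Agent.S30.Density.SplittingLog
import Fermat.Agent.S30.Density.PrimeSum

namespace Fermat.Agent.S30.Density.SplittingDensity

open NumberField Ideal IsDedekindDomain Filter Topology Asymptotics
open Fermat.Agent.S30.Density

variable (M E : Type*) [Field M] [NumberField M] [Field E] [NumberField E] [Algebra M E]

/-- The set of degree-one places of `M` which split completely in `E`. -/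
abbrev splitSet : Set (HeightOneSpectrum (𝓞 M)) := SplittingLog.splSet M E

omit [NumberField E] in
theorem mem_splitSet_iff (q : HeightOneSpectrum (𝓞 M)) :
    q ∈ splitSet M E ↔
      (absNorm q.asIdeal).Prime ∧ Splitting.SplitsCompletely E q.asIdeal := Iff.rfl

omit [NumberField E] in
theorem splitSet_subset_degreeOne : splitSet M E ⊆ PrimeSum.degreeOne M := fun _ h => h.1

theorem degOneSet_eq_degreeOne (K : Type*) [Field K] [NumberField K] :
    SplittingLog.degOneSet K = PrimeSum.degreeOne K := rfl

variable [IsGalois M E]

/-- **K-1b, end form.** -/
theorem hasLogDensity_splitSet :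
    PrimeSum.HasLogDensity M (splitSet M E) (1 / (Module.finrank M E : ℝ)) :=
  SplittingLog.logDensity_splSet M E (PrimeSum.primeSum₁_sub_log_isBigO E)

end Fermat.Agent.S30.Density.SplittingDensity
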